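import Mathlib

/-!
# S41, chapter F, (CO): the abstract core (determinant trick)
-/

set_option autoImplicit false

open Polynomial

namespace Fermat.Agent.S41Lib

theorem CO_eval_not_dvd {p : ℕ} (hp : p.Prime) {P : ℤ[X]} (hmon : P.Monic)
    (hcoeff : ∀ k, P.coeff k ∈ Ideal.span {(p : ℤ)} ^ (P.natDegree - k)) {c : ℤ}
    (hc : ¬ (p : ℤ) ∣ c) : ¬ (p : ℤ) ∣ P.eval c := by
  intro hdvd
  rw [Polynomial.eval_eq_sum_range, Finset.sum_range_succ, hmon.coeff_natDegree, one_mul] at hdvd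
  have h1 : (p : ℤ) ∣ ∑ i ∈ Finset.range P.natDegree, P.coeff i * c ^ i := by
    refine Finset.dvd_sum fun i hi => ?_
    have h2 : P.natDegree - i ≠ 0 := by
      have := Finset.mem_range.mp hi
      omega
    have h3 : P.coeff i ∈ Ideal.span {(p : ℤ)} := Ideal.pow_le_self h2 (hcoeff i)
    exact Dvd.dvd.mul_right (Ideal.mem_span_singleton.mp h3) _
  have h4 : (p : ℤ) ∣ c ^ P.natDegree := (Int.dvd_add_right h1).mp hdvd
  exact hc ((Nat.prime_iff_prime_int.mp hp).dvd_of_dvd_pow h4)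

theorem core_abs {X Y : Type*} [AddCommGroup X] [AddCommGroup Y] [Module.Finite ℤ X]
    (a : X →+ Y) (b : Y →+ X) (σ : X →+ X) (p : ℕ) (hp : p.Prime)
    (hσM : ∀ x, σ (b (a x)) = b (a (σ x)))
    (hσb : ∀ y, ∃ y', σ (b y) = b y')
    (hPD : ∀ x, ∃ y x', σ x = b y + p • x')
    (ξ : X) (c : ℤ) (hc : ¬ (p : ℤ) ∣ c)
    (hσξ : ∃ x', σ ξ = c • ξ + p • x')
    (hM : ∃ η, b (a ξ) = p • η) :
    ∃ (w : Y) (c' : ℤ) (y : Y), b w = 0 ∧ ¬ (p : ℤ) ∣ c' ∧ w = c' • a ξ + p • y := by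
  set B : Submodule ℤ X := LinearMap.range b.toIntLinearMap with hBdef
  set σL : Module.End ℤ X := σ.toIntLinearMap with hσL
  have hσLa : ∀ x, σL x = σ x := fun x => rfl
  have hB : B ≤ B.comap σL := by
    rintro _ ⟨y, rfl⟩
    obtain ⟨y', hy'⟩ := hσb y
    exact ⟨y', hy'.symm⟩
  set σb : Module.End ℤ (X ⧸ B) := B.mapQ B σL hB with hσbdef
  have hσbmk : ∀ x : X, σb (B.mkQ x) = B.mkQ (σL x) := fun x => rfl
  have hrange : LinearMap.range σb ≤ Ideal.span {(p : ℤ)} • (⊤ : Submodule ℤ (X ⧸ B)) := by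
    rintro _ ⟨x, rfl⟩
    obtain ⟨x, rfl⟩ := B.mkQ_surjective x
    obtain ⟨y, x', hx'⟩ := hPD x
    rw [hσbmk, hσLa, hx', map_add]
    have h0 : B.mkQ (b y) = 0 := by
      rw [Submodule.mkQ_apply, Submodule.Quotient.mk_eq_zero]
      exact ⟨y, rfl⟩
    rw [h0, zero_add, map_nsmul, ← natCast_zsmul]
    exact Submodule.smul_mem_smul (Ideal.mem_span_singleton_self _) Submodule.mem_top
  obtain ⟨P, hmon, -, hcoeff, hP⟩ :=
    LinearMap.exists_monic_and_natDegree_eq_and_coeff_mem_pow_and_aeval_eq_zero ℤ σb _ hrange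
  -- the three properties of polynomials in `σ`
  have key : ∀ Q : ℤ[X], (∀ x, B.mkQ (aeval σL Q x) = aeval σb Q (B.mkQ x)) ∧
      (∀ x, aeval σL Q (b (a x)) = b (a (aeval σL Q x))) ∧
      (∃ x', aeval σL Q ξ = (Q.eval c) • ξ + p • x') := by
    intro Q
    induction Q using Polynomial.induction_on with
    | C r =>
      refine ⟨fun x => ?_, fun x => ?_, 0, ?_⟩
      · simp only [aeval_C, Module.algebraMap_end_apply, map_smul]
      · simp only [aeval_C, Module.algebraMap_end_apply, map_zsmul]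
      · simp only [aeval_C, Module.algebraMap_end_apply, eval_C, smul_zero, add_zero]
    | add Q R hQ hR =>
      obtain ⟨q1, q2, x1, q3⟩ := hQ
      obtain ⟨r1, r2, x2, r3⟩ := hR
      refine ⟨fun x => ?_, fun x => ?_, x1 + x2, ?_⟩
      · simp only [map_add, LinearMap.add_apply, q1, r1]
      · simp only [map_add, LinearMap.add_apply, q2, r2]
      · simp only [map_add, LinearMap.add_apply, q3, r3, eval_add, add_smul, smul_add]
        abel
    | monomial n r hQ =>
      obtain ⟨q1, q2, x1, q3⟩ := hQ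
      obtain ⟨x0, hx0⟩ := hσξ
      have e1 : aeval σL (C r * Polynomial.X ^ (n + 1)) = aeval σL (C r * Polynomial.X ^ n) * σL := by
        rw [pow_succ, ← mul_assoc, map_mul (aeval σL) _ Polynomial.X, aeval_X]
      have e2 : aeval σb (C r * Polynomial.X ^ (n + 1)) = aeval σb (C r * Polynomial.X ^ n) * σb := by
        rw [pow_succ, ← mul_assoc, map_mul (aeval σb) _ Polynomial.X, aeval_X]
      refine ⟨fun x => ?_, fun x => ?_, c • x1 + aeval σL (C r * Polynomial.X ^ n) x0, ?_⟩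
      · rw [e1, e2, Module.End.mul_apply, Module.End.mul_apply, q1, hσbmk]
      · rw [e1, Module.End.mul_apply, Module.End.mul_apply, hσLa, hσM, q2, hσLa]
      · have e3 : eval c (C r * Polynomial.X ^ (n + 1)) = c * eval c (C r * Polynomial.X ^ n) := by
          rw [pow_succ, ← mul_assoc, eval_mul (q := Polynomial.X), eval_X, mul_comm]
        rw [e1, Module.End.mul_apply, hσLa, hx0, map_add, map_smul, map_nsmul, q3, e3,
          smul_add, smul_add, smul_smul, smul_comm c p x1, add_assoc]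
  obtain ⟨k1, k2, x', k3⟩ := key P
  set τ : Module.End ℤ X := aeval σL P with hτ
  obtain ⟨η, hη⟩ := hM
  have hτη : τ η ∈ B := by
    rw [← Submodule.Quotient.mk_eq_zero, ← Submodule.mkQ_apply, k1, hP, LinearMap.zero_apply]
  obtain ⟨y, hy⟩ := hτη
  have hy' : b y = τ η := hy
  refine ⟨a (τ ξ) - p • y, P.eval c, a x' - y, ?_, CO_eval_not_dvd hp hmon hcoeff hc, ?_⟩
  · rw [map_sub, ← k2, hη, map_nsmul, map_nsmul, hy', sub_self]
  · rw [k3, map_add, map_zsmul, map_nsmul, smul_sub]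
    abel

end Fermat.Agent.S41Lib
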