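import Fermat.Agent.S49.LinAlg

/-!
# S41, leaf (DL): Deligne-Serre on the lattice `K = ker Θ(u)`
-/

set_option autoImplicit false
set_option synthInstance.maxHeartbeats 400000

namespace Fermat.Agent.S41Lib

/-- if `n w ∈ p Λ` and `w ∉ p Λ` then `p ∣ n` -/
theorem DL_dvd {Λ : Type*} [AddCommGroup Λ] (p : ℕ) [hp : Fact p.Prime] (w : Λ)
    (hw : ∀ z : Λ, w ≠ p • z) (n : ℤ) (z : Λ) (h : n • w + p • z = 0) : (p : ℤ) ∣ n := by
  by_contra hn
  have hcop : IsCoprime (p : ℤ) n :=
    ((Nat.prime_iff_prime_int.1 hp.out).coprime_iff_not_dvd).2 hn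
  obtain ⟨a, b, hab⟩ := hcop
  apply hw (a • w - b • z)
  have h1 : n • w = - (p • z) := eq_neg_of_add_eq_zero_left h
  calc w = (a * p + b * n) • w := by rw [hab, one_smul]
    _ = (p : ℤ) • (a • w) + b • (n • w) := by
        rw [add_smul, mul_smul, mul_smul, smul_comm a (p : ℤ) w]
    _ = p • (a • w - b • z) := by
        rw [h1, smul_neg, smul_sub, natCast_zsmul, smul_comm b p z, sub_eq_add_neg]

theorem exists_char_lift {T Λ : Type*} [CommRing T] [AddCommGroup Λ] [Module.Free ℤ Λ]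
    [Module.Finite ℤ Λ] (Θ : T →+* Module.End ℤ Λ) (p : ℕ) [Fact p.Prime] (u : T) (w : Λ)
    (hw : ∀ z : Λ, w ≠ p • z) (hu : Θ u w = 0) (χ : T →+* ZMod p)
    (hχ : ∀ t, ∃ (n : ℤ) (z : Λ), χ t = (n : ZMod p) ∧ Θ t w = n • w + p • z) :
    ∃ χ₀ : T →+* ℂ, χ₀ u = 0 ∧ RingHom.ker χ₀ ≤ RingHom.ker χ := by
  classical
  set K : Submodule ℤ Λ := LinearMap.ker (Θ u) with hK
  have hstab : ∀ t, ∀ x ∈ K, Θ t x ∈ K := by
    intro t x hx
    rw [hK, LinearMap.mem_ker] at hx ⊢
    have : Θ u (Θ t x) = Θ t (Θ u x) := by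
      rw [← Module.End.mul_apply, ← Module.End.mul_apply, ← map_mul, ← map_mul, mul_comm]
    rw [this, hx, map_zero]
  let R : T →+* Module.End ℤ K :=
    { toFun := fun t => (Θ t).restrict (hstab t)
      map_one' := by ext x; simp
      map_mul' := fun s t => by ext x; simp
      map_zero' := by ext x; simp
      map_add' := fun s t => by ext x; simp }
  have hR : ∀ t (x : K), ((R t x : K) : Λ) = Θ t x := fun t x => rfl
  let b := Module.Free.chooseBasis ℤ K
  let ρ : T →+* Module.End ℂ (Module.Free.ChooseBasisIndex ℤ K → ℂ) :=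
    (Matrix.toLinAlgEquiv' (R := ℂ) (n := Module.Free.ChooseBasisIndex ℤ K)).toRingEquiv.toRingHom.comp
      ((Int.castRingHom ℂ).mapMatrix.comp ((LinearMap.toMatrixAlgEquiv b).toRingEquiv.toRingHom.comp R))
  have hρ : ∀ t, ρ t = 0 ↔ R t = 0 := by
    intro t
    constructor
    · intro h
      have h1 : (Int.castRingHom ℂ).mapMatrix (LinearMap.toMatrixAlgEquiv b (R t)) = 0 :=
        (Matrix.toLinAlgEquiv' (R := ℂ)
          (n := Module.Free.ChooseBasisIndex ℤ K)).injective (by rw [map_zero]; exact h)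
      have h2 : LinearMap.toMatrixAlgEquiv b (R t) = 0 := by
        ext i j
        have := congrFun (congrFun h1 i) j
        simpa using this
      exact (LinearMap.toMatrixAlgEquiv b).injective (by rw [map_zero]; exact h2)
    · intro h
      show (Matrix.toLinAlgEquiv' (R := ℂ) (n := Module.Free.ChooseBasisIndex ℤ K))
        ((Int.castRingHom ℂ).mapMatrix (LinearMap.toMatrixAlgEquiv b (R t))) = 0
      rw [h, map_zero, map_zero, map_zero]
  have hwK : w ∈ K := hu
  have hker : RingHom.ker ρ ≤ RingHom.ker χ := by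
    intro t ht
    rw [RingHom.mem_ker] at ht ⊢
    have h0 : Θ t w = 0 := by
      have := congrArg (fun F : Module.End ℤ K => ((F ⟨w, hwK⟩ : K) : Λ)) ((hρ t).1 ht)
      simpa [hR] using this
    obtain ⟨n, z, hn, hz⟩ := hχ t
    rw [hn, ZMod.intCast_zmod_eq_zero_iff_dvd]
    exact DL_dvd p w hw n z (by rw [← hz, h0])
  let ρb : (T ⧸ RingHom.ker ρ) →+* Module.End ℂ (Module.Free.ChooseBasisIndex ℤ K → ℂ) :=
    RingHom.kerLift ρ
  have hρb : Function.Injective ρb := RingHom.kerLift_injective ρ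
  let χb : (T ⧸ RingHom.ker ρ) →+* ZMod p := Ideal.Quotient.lift (RingHom.ker ρ) χ
    (fun t ht => hker ht)
  have hprime : (RingHom.ker χb).IsPrime := RingHom.ker_isPrime χb
  obtain ⟨v, χ₁, -, -, hle⟩ := Fermat.Agent.S49Lib.exists_eigenchar_ker_le (K := ℂ) ρb hρb
    (RingHom.ker χb)
  refine ⟨χ₁.comp (Ideal.Quotient.mk (RingHom.ker ρ)), ?_, ?_⟩
  · have : Ideal.Quotient.mk (RingHom.ker ρ) u = 0 := by
      rw [Ideal.Quotient.eq_zero_iff_mem, RingHom.mem_ker, hρ]
      ext x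
      rw [hR]
      exact x.2
    rw [RingHom.comp_apply, this, map_zero]
  · intro t ht
    rw [RingHom.mem_ker, RingHom.comp_apply] at ht
    have := hle ht
    rw [RingHom.mem_ker] at this ⊢
    exact this

end Fermat.Agent.S41Lib
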