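import Fermat.Agent.SMO.Eigenvector

/-!
# S41, (EU): every character of a Hecke algebra comes from a normalised eigenform (with the `U` clause)
-/

set_option autoImplicit false
set_option synthInstance.maxHeartbeats 400000

namespace Fermat.Agent.S41Lib

open CuspForm ModularFormClass CongruenceSubgroup EisensteinWeightOne
open Fermat.Agent.S49Lib Fermat.Agent.SMOLib

/-- copy of `S49Lib.exists_normalizedEigenform_of_eigenvector` with the `U` clause -/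
theorem EU_normalized {N : ℕ} [NeZero N] (v : CuspForm (Gamma0 N) 2)
    (hv0 : v ≠ 0) (χ : heckeAlgebra N 2 (∅ : Set ℕ) →+* ℂ)
    (hχ : ∀ t : heckeAlgebra N 2 (∅ : Set ℕ),
      (t : Module.End ℂ (CuspForm (Gamma0 N) 2)) v = χ t • v) :
    ∃ g : CuspForm (Gamma0 N) 2, g.IsNormalizedEigenform ∧
      (∀ (ℓ : ℕ) (hℓ : ℓ.Prime) (hℓN : ¬ ℓ ∣ N),
        qCoeff ⇑g ℓ = χ (heckeAlgebra.T hℓ hℓN (Set.notMem_empty ℓ))) ∧
      (∀ (ℓ : ℕ) (hℓ : ℓ.Prime) (hℓN : ℓ ∣ N),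
        qCoeff ⇑g ℓ = χ (heckeAlgebra.U hℓ hℓN (Set.notMem_empty ℓ))) := by
  classical
  let e : ℕ → ℂ := fun ℓ => if ℓ ∣ N then 0 else (ℓ : ℂ)
  let lam : ℕ → ℂ := fun ℓ =>
    if hℓ : ℓ.Prime then
      (if hN : ℓ ∣ N then χ (heckeAlgebra.U hℓ hN (Set.notMem_empty ℓ))
        else χ (heckeAlgebra.T hℓ hN (Set.notMem_empty ℓ)))
    else 0
  have hrel : ∀ (w : CuspForm (Gamma0 N) 2),
      (∀ t : heckeAlgebra N 2 (∅ : Set ℕ),
        (t : Module.End ℂ (CuspForm (Gamma0 N) 2)) w = χ t • w) →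
      ∀ ℓ : ℕ, ℓ.Prime → ∀ n : ℕ,
      qCoeff ⇑w (ℓ * n) + e ℓ * (if ℓ ∣ n then qCoeff ⇑w (n / ℓ) else 0)
        = lam ℓ * qCoeff ⇑w n := by
    intro w hw ℓ hℓ n
    by_cases hN : ℓ ∣ N
    · have h1 := hw (heckeAlgebra.U hℓ hN (Set.notMem_empty ℓ))
      rw [heckeAlgebra.coe_U] at h1
      have h2 := qCoeff_heckeULin hℓ hN w n
      rw [h1, qCoeff_smul] at h2
      simp only [e, lam, dif_pos hℓ, dif_pos hN, if_pos hN, zero_mul, add_zero]
      exact h2.symm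
    · have h1 := hw (heckeAlgebra.T hℓ hN (Set.notMem_empty ℓ))
      rw [heckeAlgebra.coe_T] at h1
      have h2 := qCoeff_heckeTLin hℓ hN w n
      rw [h1, qCoeff_smul] at h2
      simp only [e, lam, dif_pos hℓ, dif_neg hN, if_neg hN]
      exact h2.symm
  have hb1 : qCoeff ⇑v 1 ≠ 0 := by
    intro h1
    exact hv0 (eq_zero_of_qCoeff_eq_zero v
      (eq_zero_of_hecke_relations (qCoeff_zero_index v) h1 (hrel v hχ)))
  set g : CuspForm (Gamma0 N) 2 := (qCoeff ⇑v 1)⁻¹ • v with hg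
  have hgχ : ∀ t : heckeAlgebra N 2 (∅ : Set ℕ),
      (t : Module.End ℂ (CuspForm (Gamma0 N) 2)) g = χ t • g := by
    intro t
    rw [hg, map_smul, hχ t, smul_comm]
  have hg1 : qCoeff ⇑g 1 = 1 := by
    rw [hg, qCoeff_smul, inv_mul_cancel₀ hb1]
  have hlam : ∀ ℓ : ℕ, ℓ.Prime → lam ℓ = qCoeff ⇑g ℓ := by
    intro ℓ hℓ
    have := hrel g hgχ ℓ hℓ 1
    rw [if_neg (by simpa using hℓ.one_lt.ne'), mul_zero, add_zero, mul_one, hg1, mul_one] at this
    exact this.symm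
  have heig : FormalHecke.IsEigensystem e (fun n => qCoeff ⇑g n) := by
    refine ⟨hg1, fun ℓ hℓ n => ?_⟩
    have := hrel g hgχ ℓ hℓ n
    rw [hlam ℓ hℓ] at this
    exact this
  obtain ⟨-, hmul, hpow⟩ := isRecursive_of_isEigensystem heig
  refine ⟨g, ⟨hg1, hmul, ?_, ?_⟩, ?_, ?_⟩
  · intro p r hp hpN
    have := hpow p r hp
    simpa only [e, if_neg hpN] using this
  · intro p r hp hpN
    have := hpow p r hp
    simpa only [e, if_pos hpN, zero_mul, sub_zero] using this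
  · intro ℓ hℓ hℓN
    rw [← hlam ℓ hℓ]
    simp only [lam, dif_pos hℓ, dif_neg hℓN]
  · intro ℓ hℓ hℓN
    rw [← hlam ℓ hℓ]
    simp only [lam, dif_pos hℓ, dif_pos hℓN]

/-- (EU) `S41/F/EigenU.lean` : `SMOLib.exists_eigenform_of_char` with the `U` clause -/
theorem exists_eigenform_of_charU (N : ℕ) [NeZero N] (S : Set ℕ)
    (χ : heckeAlgebra N 2 S →+* ℂ) :
    ∃ h : CuspForm (Gamma0 N) 2, h.IsNormalizedEigenform ∧
      (∀ (ℓ : ℕ) (hℓ : ℓ.Prime) (hℓN : ¬ ℓ ∣ N) (hℓS : ℓ ∉ S),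
        qCoeff h ℓ = χ (heckeAlgebra.T hℓ hℓN hℓS)) ∧
      (∀ (q : ℕ) (hq : q.Prime) (hqN : q ∣ N) (hqS : q ∉ S),
        qCoeff h q = χ (heckeAlgebra.U hq hqN hqS)) := by
  classical
  have hfin : FiniteDimensional ℂ (CuspForm (Gamma0 N) 2) :=
    FiniteDimensional.of_injective _ (Fermat.Agent.S23Lib.coeffMap_injective N 2)
  obtain ⟨v₀, hv₀, hev₀⟩ := exists_eigenvector_of_char N S χ
  let W : Submodule ℂ (CuspForm (Gamma0 N) 2) :=
    { carrier := {v | ∀ t : heckeAlgebra N 2 S,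
        (t : Module.End ℂ (CuspForm (Gamma0 N) 2)) v = χ t • v}
      add_mem' := fun {a b} ha hb t => by
        rw [map_add, ha t, hb t, smul_add]
      zero_mem' := fun t => by rw [map_zero, smul_zero]
      smul_mem' := fun c a ha t => by
        rw [map_smul, ha t, smul_comm] }
  have hW : W ≠ ⊥ := fun h => hv₀ ((Submodule.mem_bot ℂ).1 (h ▸ (show v₀ ∈ W from hev₀)))
  have hle : heckeAlgebra N 2 S ≤ heckeAlgebra N 2 (∅ : Set ℕ) :=
    heckeAlgebra_mono (Set.empty_subset S)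
  let 𝒜 : Set (Module.End ℂ (CuspForm (Gamma0 N) 2)) :=
    ((heckeAlgebra N 2 (∅ : Set ℕ) : Subalgebra ℤ _) : Set _)
  have hcomm : ∀ A ∈ 𝒜, ∀ B ∈ 𝒜, Commute A B := by
    intro A hA B hB
    have := mul_comm (⟨A, hA⟩ : heckeAlgebra N 2 (∅ : Set ℕ)) ⟨B, hB⟩
    exact congrArg Subtype.val this
  have hinv : ∀ T ∈ 𝒜, ∀ w ∈ W, T w ∈ W := by
    intro T hT w hw t
    have h1 : Commute (t : Module.End ℂ (CuspForm (Gamma0 N) 2)) T := hcomm _ (hle t.2) _ hT
    have h2 := congrArg (fun F : Module.End ℂ (CuspForm (Gamma0 N) 2) => F w) h1.eq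
    simp only [Module.End.mul_apply] at h2
    rw [h2, hw t, map_smul]
  obtain ⟨v, hvW, hv0, hv⟩ := Fermat.Agent.S49Lib.exists_common_eigenvector 𝒜 hcomm W hW hinv
  have hv' : ∀ t : heckeAlgebra N 2 (∅ : Set ℕ), ∃ μ : ℂ,
      (t : Module.End ℂ (CuspForm (Gamma0 N) 2)) v = μ • v := fun t => hv _ t.2
  choose ψ hψ using hv'
  have hinj : Function.Injective fun c : ℂ => c • v := smul_left_injective ℂ hv0
  let ψ' : heckeAlgebra N 2 (∅ : Set ℕ) →+* ℂ :=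
    { toFun := ψ
      map_one' := hinj (by
        simp only [← hψ]
        simp)
      map_mul' := fun s t => hinj (by
        simp only [← hψ]
        rw [Subalgebra.coe_mul, Module.End.mul_apply, hψ t, map_smul, hψ s, smul_smul, mul_comm])
      map_zero' := hinj (by
        simp only [← hψ]
        simp)
      map_add' := fun s t => hinj (by
        simp only [← hψ, add_smul]
        simp) }
  obtain ⟨g, hg, hgc, hgu⟩ := EU_normalized v hv0 ψ' hψ
  refine ⟨g, hg, fun ℓ hℓ hℓN hℓS => ?_, fun q hq hqN hqS => ?_⟩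
  · rw [hgc ℓ hℓ hℓN]
    apply hinj
    change ψ _ • v = χ _ • v
    rw [← hψ, ← hvW (heckeAlgebra.T hℓ hℓN hℓS)]
    rfl
  · rw [hgu q hq hqN]
    apply hinj
    change ψ _ • v = χ _ • v
    rw [← hψ, ← hvW (heckeAlgebra.U hq hqN hqS)]
    rfl

end Fermat.Agent.S41Lib
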