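import Fermat.Prelude.Def_CuspForm_HeckeAlgebra

/-!
# S41, (HG): the Hecke algebra away from `S` is generated by the `T_ℓ` and the `U_r`
-/

set_option autoImplicit false
set_option synthInstance.maxHeartbeats 400000

open CuspForm

namespace Fermat.Agent.S41Lib

/-- (HG) `S41/F/HeckeGenU.lean` : generators (copy of `S40/Reg/HeckeGen.lean`) -/
theorem heckeAlgebra_closureU (M : ℕ) [NeZero M] (S : Set ℕ) :
    Subring.closure ({t : heckeAlgebra M 2 S | ∃ (ℓ : ℕ) (hℓ : ℓ.Prime) (hℓM : ¬ ℓ ∣ M)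
      (hℓS : ℓ ∉ S), t = heckeAlgebra.T hℓ hℓM hℓS} ∪
      {t : heckeAlgebra M 2 S | ∃ (r : ℕ) (hr : r.Prime) (hrM : r ∣ M)
      (hrS : r ∉ S), t = heckeAlgebra.U hr hrM hrS}) = ⊤ := by
  rw [eq_top_iff]
  rintro ⟨t, ht⟩ -
  induction ht using Algebra.adjoin_induction with
  | mem x hx =>
    rcases hx with ⟨ℓ, hℓ, hℓN, hℓS, rfl⟩ | ⟨q, hqN, hq, hqS, rfl⟩
    · exact Subring.subset_closure (Or.inl ⟨ℓ, hℓ, hℓN, hℓS, rfl⟩)
    · exact Subring.subset_closure (Or.inr ⟨q, hq, hqN, hqS, rfl⟩)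
  | algebraMap r =>
    have h1 : (⟨algebraMap ℤ _ r, Subalgebra.algebraMap_mem _ r⟩ : heckeAlgebra M 2 S)
        = ((r : ℤ) : heckeAlgebra M 2 S) := by
      apply Subtype.ext
      simp
    exact h1 ▸ intCast_mem _ r
  | add x y hx hy h1 h2 => exact add_mem h1 h2
  | mul x y hx hy h1 h2 => exact mul_mem h1 h2

end Fermat.Agent.S41Lib
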