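import Fermat.Agent.S41.F.ChiBar
import Fermat.Agent.S41.F.DSLat
import Fermat.Agent.S41.F.EigenU
import Fermat.Agent.S41.F.HeckeGenU
import Fermat.Agent.ES.Theta
import Fermat.Agent.S22

/-!
# S41, leaf (EN): the endgame
-/

set_option autoImplicit false
set_option synthInstance.maxHeartbeats 400000

open CongruenceSubgroup Matrix.SpecialLinearGroup CuspForm ModularFormClass
open scoped MatrixGroups

namespace Fermat.Agent.S41Lib

open Fermat.Agent.ESLib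

/-- replace `w` by an eigenvector modulo `p` of the involution `U` -/
theorem EN_split {Λ : Type*} [AddCommGroup Λ] (p : ℕ) (U : Module.End ℤ Λ) (w : Λ)
    (hw : ∀ z : Λ, w ≠ p • z) (hU : U (U w) = w) :
    ∃ (w' : Λ) (c : ℤ), (∀ z : Λ, w' ≠ p • z) ∧ U (U w') = w' ∧ (∃ z, U w' = c • w' + p • z) ∧
      ∀ (F : Module.End ℤ Λ) (n : ℤ), Commute F U → (∃ z, F w = n • w + p • z) →
        ∃ z, F w' = n • w' + p • z := by
  by_cases h : ∃ z, U w + w = p • z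
  · obtain ⟨z, hz⟩ := h
    refine ⟨w, -1, hw, hU, ⟨z, ?_⟩, fun F n _ hF => hF⟩
    rw [← hz]
    simp
  · refine ⟨U w + w, 1, fun z hz => h ⟨z, hz⟩, ?_, ⟨0, ?_⟩, ?_⟩
    · rw [map_add, map_add, hU]
    · rw [map_add, hU, one_smul, smul_zero, add_zero, add_comm]
    · rintro F n hc ⟨z, hz⟩
      refine ⟨U z + z, ?_⟩
      have h1 : F (U w) = U (F w) := by
        have := congrArg (fun G : Module.End ℤ Λ => G w) hc.eq
        simpa [Module.End.mul_apply] using this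
      rw [map_add, h1, hz, map_add, map_smul, map_nsmul, smul_add, smul_add]
      abel

theorem endgame (N' : ℕ) [NeZero N'] (S : Set ℕ) {p q : ℕ} [Fact p.Prime] (hq : q.Prime)
    (hqN : q ∣ N') (hqS : q ∉ S) (hS : ∀ r : ℕ, r.Prime → r ∣ N' → r ≠ q → r ∈ S)
    (Θ : heckeAlgebra N' 2 S →+* Module.End ℤ (EP N' ℤ))
    (a : ℕ → ℤ) (w : EP N' ℤ) (hw : ∀ z : EP N' ℤ, w ≠ p • z)
    (hT : ∀ (ℓ : ℕ) (hℓ : ℓ.Prime) (hℓN : ¬ ℓ ∣ N') (hℓS : ℓ ∉ S),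
      ∃ z : EP N' ℤ, Θ (heckeAlgebra.T hℓ hℓN hℓS) w = a ℓ • w + p • z)
    (hU : Θ (heckeAlgebra.U hq hqN hqS) (Θ (heckeAlgebra.U hq hqN hqS) w) = w) :
    ∃ (g : CuspForm (Gamma0 N') 2) (𝔪' : Ideal (integralClosure ℤ ℂ)),
      g.IsNormalizedEigenform ∧ 𝔪'.IsMaximal ∧ (p : integralClosure ℤ ℂ) ∈ 𝔪' ∧
      (∀ ℓ : ℕ, ℓ.Prime → ¬ ℓ ∣ N' → ℓ ∉ S →
        ∃ α : integralClosure ℤ ℂ, (α : ℂ) = qCoeff g ℓ ∧
          α - ((a ℓ : ℤ) : integralClosure ℤ ℂ) ∈ 𝔪') ∧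
      qCoeff g q ^ 2 = 1 := by
  classical
  obtain ⟨r, ⟨bas⟩⟩ := H3.exists_basis N'
  have hfree : Module.Free ℤ (EP N' ℤ) := Module.Free.of_basis bas
  have hfinΛ : Module.Finite ℤ (EP N' ℤ) := Module.Finite.of_basis bas
  have hfin : Module.Finite ℤ (heckeAlgebra N' 2 S) := Fermat.Agent.S22.result N' 2 S
  set Uq : heckeAlgebra N' 2 S := heckeAlgebra.U hq hqN hqS with hUq
  obtain ⟨w', cq, hw', hUU, hUw', htr⟩ := EN_split p (Θ Uq) w hw hU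
  have hT' : ∀ (ℓ : ℕ) (hℓ : ℓ.Prime) (hℓN : ¬ ℓ ∣ N') (hℓS : ℓ ∉ S),
      ∃ z : EP N' ℤ, Θ (heckeAlgebra.T hℓ hℓN hℓS) w' = a ℓ • w' + p • z :=
    fun ℓ hℓ hℓN hℓS => htr _ _ ((Commute.all _ _).map Θ) (hT ℓ hℓ hℓN hℓS)
  -- the character modulo `p`
  let c : heckeAlgebra N' 2 S → ℤ := fun t =>
    if h : ∃ n : ℤ, ∃ z : EP N' ℤ, Θ t w' = n • w' + p • z then h.choose else 0
  have hc : ∀ t, (∃ n : ℤ, ∃ z : EP N' ℤ, Θ t w' = n • w' + p • z) →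
      ∃ z : EP N' ℤ, Θ t w' = c t • w' + p • z := by
    intro t h
    simp only [c, dif_pos h]
    exact h.choose_spec
  obtain ⟨χ, -, hχ⟩ := exists_chibar Θ _ (heckeAlgebra_closureU N' S) p w' hw' c (by
    rintro t (⟨ℓ, hℓ, hℓN, hℓS, rfl⟩ | ⟨r', hr, hrN, hrS, rfl⟩)
    · exact hc _ ⟨a ℓ, hT' ℓ hℓ hℓN hℓS⟩
    · have hrq : r' = q := by
        by_contra hne
        exact hrS (hS r' hr hrN hne)
      subst hrq
      exact hc _ ⟨cq, hUw'⟩)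
  have hχval : ∀ t (n : ℤ) (z : EP N' ℤ), Θ t w' = n • w' + p • z → χ t = (n : ZMod p) := by
    intro t n z hz
    obtain ⟨n', z', h1, h2⟩ := hχ t
    rw [h1, ZMod.intCast_eq_intCast_iff_dvd_sub]
    apply DL_dvd p w' hw' (n - n') (z - z')
    rw [sub_smul, smul_sub]
    have : n • w' + p • z = n' • w' + p • z' := by rw [← hz, h2]
    calc n • w' - n' • w' + (p • z - p • z') = (n • w' + p • z) - (n' • w' + p • z') := by abel
      _ = 0 := by rw [this, sub_self]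
  -- the lift
  obtain ⟨χ₀, hχ₀u, hker⟩ := exists_char_lift Θ p (Uq ^ 2 - 1) w' hw' (by
    rw [map_sub, map_pow, map_one, LinearMap.sub_apply, pow_two, Module.End.mul_apply, hUU,
      Module.End.one_apply, sub_self]) χ hχ
  obtain ⟨g, hg, hgT, hgU⟩ := exists_eigenform_of_charU N' S χ₀
  have h𝔫 : (RingHom.ker χ).IsPrime := RingHom.ker_isPrime χ
  have hint : ∀ t, χ₀ t ∈ integralClosure ℤ ℂ := fun t =>
    map_isIntegral_int χ₀ (Algebra.IsIntegral.isIntegral (R := ℤ) t)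
  let χ' : heckeAlgebra N' 2 S →+* integralClosure ℤ ℂ :=
    χ₀.codRestrict (integralClosure ℤ ℂ) hint
  have hker' : RingHom.ker χ' ≤ RingHom.ker χ := by
    intro t ht
    apply hker
    rw [RingHom.mem_ker] at ht ⊢
    exact congrArg Subtype.val ht
  have hχ'int : χ'.IsIntegral := by
    apply RingHom.IsIntegral.tower_top (Int.castRingHom (heckeAlgebra N' 2 S)) χ'
    have : χ'.comp (Int.castRingHom (heckeAlgebra N' 2 S)) =
        algebraMap ℤ (integralClosure ℤ ℂ) := RingHom.ext_int _ _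
    rw [this]
    exact algebraMap_isIntegral_iff.mpr inferInstance
  have hmap : (RingHom.ker χ).map χ' ≠ ⊤ := fun htop =>
    h𝔫.ne_top ((Ideal.map_eq_top_iff_of_ker_le χ' hker' hχ'int).mp htop)
  obtain ⟨𝔪', h𝔪'max, h𝔪'⟩ := Ideal.exists_le_maximal _ hmap
  refine ⟨g, 𝔪', hg, h𝔪'max, ?_, ?_, ?_⟩
  · have hp : (p : heckeAlgebra N' 2 S) ∈ RingHom.ker χ := by
      rw [RingHom.mem_ker, map_natCast, CharP.cast_eq_zero]
    have := h𝔪' (Ideal.mem_map_of_mem χ' hp)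
    rwa [map_natCast] at this
  · intro ℓ hℓ hℓN hℓS
    refine ⟨χ' (heckeAlgebra.T hℓ hℓN hℓS), (hgT ℓ hℓ hℓN hℓS).symm, ?_⟩
    obtain ⟨z, hz⟩ := hT' ℓ hℓ hℓN hℓS
    have hmem : heckeAlgebra.T hℓ hℓN hℓS - ((a ℓ : ℤ) : heckeAlgebra N' 2 S) ∈ RingHom.ker χ := by
      rw [RingHom.mem_ker, map_sub, hχval _ _ z hz, map_intCast, sub_self]
    have := h𝔪' (Ideal.mem_map_of_mem χ' hmem)
    rwa [map_sub, map_intCast] at this
  · rw [hgU q hq hqN hqS, ← hUq]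
    rw [map_sub, map_pow, map_one, sub_eq_zero] at hχ₀u
    exact hχ₀u

end Fermat.Agent.S41Lib
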