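import Fermat.Agent.S41.F.TopDefs

/-!
# S41, top, (T5): `ι_*` commutes with the transfers `b`
-/

set_option autoImplicit false
set_option synthInstance.maxHeartbeats 400000

open CongruenceSubgroup Matrix.SpecialLinearGroup ModularCurve.Period
open scoped MatrixGroups

namespace Fermat.Agent.S41Lib

open Fermat.Agent.ESLib Additive

theorem T5_main {N q : ℕ} [NeZero q] {B : Type*} [AddCommGroup B]
    {ι : Gamma0 (N * q) →* Gamma0 N} (h : IsDeg ι)
    (hJ : ∀ γ, jConjGamma0 N (ι γ) = ι (jConjGamma0 (N * q) γ)) (y : EP (N * q) B) :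
    ioEP N B (bOf B h y) = bOf B h (ioEP (N * q) B y) := by
  obtain ⟨t, ht⟩ := h.reps
  apply Subtype.ext
  refine AddMonoidHom.ext fun g' => ?_
  obtain ⟨g, hg⟩ : ∃ g, ofMul g = g' := ⟨toMul g', rfl⟩
  subst hg
  obtain ⟨s, η, hη⟩ := ht.exists_data g
  have ht' : Function.Bijective
      fun x : Gamma0 (N * q) × OnePoint (ZMod q) => ι x.1 * jConjGamma0 N (t x.2) := by
    have e : (fun x : Gamma0 (N * q) × OnePoint (ZMod q) => ι x.1 * jConjGamma0 N (t x.2)) =
        (fun g => jConjGamma0 N g) ∘ (fun x : Gamma0 (N * q) × OnePoint (ZMod q) => ι x.1 * t x.2) ∘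
          (fun x : Gamma0 (N * q) × OnePoint (ZMod q) => (jConjGamma0 (N * q) x.1, x.2)) := by
      funext x
      simp only [Function.comp_apply, map_mul, hJ, jConjGamma0_jConjGamma0]
    rw [e]
    have b1 : Function.Bijective (fun g : Gamma0 N => jConjGamma0 N g) :=
      Function.Involutive.bijective (jConjGamma0_jConjGamma0 N)
    have b2 : Function.Bijective
        (fun x : Gamma0 (N * q) × OnePoint (ZMod q) => (jConjGamma0 (N * q) x.1, x.2)) :=
      Function.Involutive.bijective (fun x => by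
        simp only [jConjGamma0_jConjGamma0])
    exact b1.comp (ht.comp b2)
  rw [ioEP_apply, b_spec h t ht g s η hη,
    b_spec h (fun i => jConjGamma0 N (t i)) ht' (jConjGamma0 N g) s
      (fun i => jConjGamma0 (N * q) (η i)) (fun i => by rw [← map_mul, hη, map_mul, hJ])]
  rfl

theorem io_bOf_incl {N q : ℕ} [NeZero q] {B : Type*} [AddCommGroup B] (h1 : IsDeg (incl N q))
    (y : EP (N * q) B) : ioEP N B (bOf B h1 y) = bOf B h1 (ioEP (N * q) B y) :=
  T5_main h1 (fun _ => rfl) y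

theorem io_bOf_adD {N q : ℕ} [NeZero q] {B : Type*} [AddCommGroup B] (h2 : IsDeg (adD N q))
    (y : EP (N * q) B) : ioEP N B (bOf B h2 y) = bOf B h2 (ioEP (N * q) B y) := by
  refine T5_main h2 (fun γ => ?_) y
  apply Gamma0_ext
  rw [adD_val, jConjGamma0_coe, jConjGamma0_coe]
  show jConjMat ((adD N q γ : SL(2, ℤ)).val) = _
  rw [adD_val]
  show _ = !![(jConjMat (γ : SL(2, ℤ)).val) 0 0, q * (jConjMat (γ : SL(2, ℤ)).val) 0 1;
      (jConjMat (γ : SL(2, ℤ)).val) 1 0 / q, (jConjMat (γ : SL(2, ℤ)).val) 1 1]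
  ext i j
  fin_cases i <;> fin_cases j <;> simp [jConjMat, Int.neg_ediv_of_dvd (q_dvd_of_Gamma0 γ)]

end Fermat.Agent.S41Lib
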