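import Fermat.Agent.S41.F.TopDefs
import Fermat.Agent.ES.Theta

/-!
# S41, top, (T6): `ι_*` commutes with `T_ℓ`
-/

set_option autoImplicit false
set_option synthInstance.maxHeartbeats 400000

open CongruenceSubgroup Matrix.SpecialLinearGroup ModularCurve.Period
open scoped MatrixGroups

namespace Fermat.Agent.S41Lib

open Fermat.Agent.ESLib
open P2MW.S_ModularForm_heckeT_slash_eq_self_of_mem_Gamma0.ModularForm.HeckeSlashInvariance

/-- `T^n` as an element of `Γ₀(N)` -/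
def T6_T (N : ℕ) (n : ℤ) : Gamma0 N := ⟨ModularGroup.T ^ n, H3.T_zpow_mem_Gamma0 n⟩

theorem T6_phi_T {N : ℕ} {B : Type*} [AddCommGroup B] (φ : EP N B) (n : ℤ) :
    (φ : Additive (Gamma0 N) →+ B) (Additive.ofMul (T6_T N n)) = 0 := by
  refine φ.2 (T6_T N n) ?_
  show ((ModularGroup.T ^ n : SL(2, ℤ)) : Matrix (Fin 2) (Fin 2) ℤ).trace ^ 2 ≤ 4
  rw [ModularGroup.coe_T_zpow, Matrix.trace_fin_two_of]
  norm_num

theorem io_isTr {N ℓ : ℕ} [NeZero ℓ] {B : Type*} [AddCommGroup B] (φ φ₁ : EP N B)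
    (h : IsTr N ℓ (φ : Additive (Gamma0 N) →+ B) (φ₁ : Additive (Gamma0 N) →+ B)) :
    IsTr N ℓ (ioEP N B φ : Additive (Gamma0 N) →+ B) (ioEP N B φ₁ : Additive (Gamma0 N) →+ B) := by
  rintro γ γ' ⟨π, hπ⟩
  choose n hn using fun x : OnePoint (ZMod ℓ) => H3.repJ_eq (ℓ := ℓ) x
  have hneg : ∀ x, H3.negP ℓ (H3.negP ℓ x) = x := by
    intro x
    induction x using OnePoint.rec with
    | infty => rfl
    | coe j =>
      show ((- -j : ZMod ℓ) : OnePoint (ZMod ℓ)) = _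
      rw [neg_neg]
  -- the new transfer data
  set γ'' : OnePoint (ZMod ℓ) → Gamma0 N := fun y =>
    T6_T N (-(n (H3.negP ℓ y))) * jConjGamma0 N (γ' (H3.negP ℓ y)) * T6_T N (n (π (H3.negP ℓ y)))
    with hγ''
  have hT : Transfer N ℓ (jConjGamma0 N γ) γ'' := by
    refine ⟨(H3.negP ℓ).trans (π.trans (H3.negP ℓ)), fun y => ?_⟩
    have h1 := H3.repJ_mul (hπ (H3.negP ℓ y))
    rw [hn, hn, hneg] at h1
    show heckeRep ℓ y * mapGL ℝ (jConjSL (γ : SL(2, ℤ))) =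
      mapGL ℝ (ModularGroup.T ^ (-(n (H3.negP ℓ y))) * jConjSL (γ' (H3.negP ℓ y) : SL(2, ℤ)) *
        ModularGroup.T ^ (n (π (H3.negP ℓ y)))) * heckeRep ℓ (H3.negP ℓ (π (H3.negP ℓ y)))
    rw [map_mul, map_mul, zpow_neg, map_inv]
    simp only [mul_assoc]
    rw [← h1]
    group
  rw [ioEP_apply, h _ _ hT, ← Equiv.sum_comp (H3.negP ℓ)]
  refine Finset.sum_congr rfl fun x _ => ?_
  rw [ioEP_apply]
  simp only [hγ'', hneg, ofMul_mul, map_add, T6_phi_T, zero_add, add_zero]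

end Fermat.Agent.S41Lib
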