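import Fermat.Agent.ES.Theta
import Fermat.Agent.S40.DSLift
import Fermat.Agent.S29.EigenChar

/-!
# S41, leaf (ST): the eigenvector modulo `p` at level `N`
-/

set_option autoImplicit false
set_option synthInstance.maxHeartbeats 400000

open CongruenceSubgroup Matrix.SpecialLinearGroup CuspForm ModularFormClass
open scoped MatrixGroups

namespace Fermat.Agent.S41Lib

open Fermat.Agent.ESLib

/-- lift an eigenvector modulo `p` of matrices to the lattice -/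
theorem ST_lift {Λ : Type*} [AddCommGroup Λ] {r : ℕ} (bas : Module.Basis (Fin r) ℤ Λ) (p : ℕ)
    [Fact p.Prime] (v : Fin r → ZMod p) (hv : v ≠ 0) :
    ∃ x : Λ, (∀ z : Λ, x ≠ p • z) ∧ ∀ (F : Module.End ℤ Λ) (n : ℤ),
      ((LinearMap.toMatrix bas bas F).map (Int.castRingHom (ZMod p))).mulVec v
        = (n : ZMod p) • v → ∃ z : Λ, F x = n • x + p • z := by
  classical
  have hsur : ∀ i, ∃ m : ℤ, (m : ZMod p) = v i := fun i => ZMod.intCast_surjective (v i)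
  choose m hm using hsur
  set x : Λ := bas.equivFun.symm m with hx
  have hrepr : ∀ i, bas.repr x i = m i := by
    intro i
    have : bas.equivFun x = m := by rw [hx, LinearEquiv.apply_symm_apply]
    exact congrFun this i
  refine ⟨x, ?_, ?_⟩
  · intro z hz
    apply hv
    funext i
    have h1 := hrepr i
    rw [hz, map_nsmul, Finsupp.smul_apply] at h1
    rw [← hm i, ← h1]
    simp
  · intro F n hF
    have hdvd : ∀ i, (p : ℤ) ∣ bas.repr (F x - n • x) i := by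
      intro i
      rw [← ZMod.intCast_zmod_eq_zero_iff_dvd]
      have h1 : bas.repr (F x) i = ((LinearMap.toMatrix bas bas F).mulVec (bas.repr x)) i := by
        rw [LinearMap.toMatrix_mulVec_repr]
      rw [map_sub, map_smul, Finsupp.sub_apply, Finsupp.smul_apply, h1, hrepr]
      have h2 := congrFun hF i
      simp only [Matrix.mulVec, dotProduct, Matrix.map_apply, eq_intCast, Pi.smul_apply,
        smul_eq_mul] at h2 ⊢
      push_cast
      rw [sub_eq_zero, hm i, ← h2]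
      refine Finset.sum_congr rfl fun j _ => ?_
      rw [hrepr, hm]
    choose y hy using hdvd
    refine ⟨bas.equivFun.symm y, ?_⟩
    rw [← sub_eq_iff_eq_add']
    apply bas.ext_elem
    intro i
    rw [hy i, map_nsmul, Finsupp.smul_apply]
    have : bas.equivFun (bas.equivFun.symm y) = y := LinearEquiv.apply_symm_apply _ _
    have h3 : bas.repr (bas.equivFun.symm y) i = y i := congrFun this i
    rw [h3]
    simp

theorem ST_exists_smul {N : ℕ} [NeZero N] (S : Set ℕ) (hS : ∀ r : ℕ, r.Prime → r ∣ N → r ∈ S)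
    {g : CuspForm (Gamma0 N) 2}
    (hg : g.IsNormalizedEigenform) (T : Module.End ℂ (CuspForm (Gamma0 N) 2))
    (hT : T ∈ heckeAlgebra N 2 S) : ∃ c : ℂ, T g = c • g := by
  induction hT using Algebra.adjoin_induction with
  | mem x hx =>
    rcases hx with ⟨ℓ, hℓ, hℓN, -, rfl⟩ | ⟨q, hqN, hq, hqS, rfl⟩
    · exact ⟨_, Fermat.Agent.S29Lib.heckeTLin_eq_smul hg ℓ hℓ hℓN⟩
    · exact absurd (hS q hq hqN) hqS
  | algebraMap n =>
    refine ⟨(n : ℂ), ?_⟩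
    rw [Module.algebraMap_end_apply, Int.cast_smul_eq_zsmul]
  | add x y _ _ hx hy =>
    obtain ⟨c, hc⟩ := hx
    obtain ⟨d, hd⟩ := hy
    exact ⟨c + d, by rw [LinearMap.add_apply, hc, hd, add_smul]⟩
  | mul x y _ _ hx hy =>
    obtain ⟨c, hc⟩ := hx
    obtain ⟨d, hd⟩ := hy
    exact ⟨d * c, by rw [Module.End.mul_apply, hd, map_smul, hc, smul_smul]⟩

theorem ST_exists_eigenChar {N : ℕ} [NeZero N] (S : Set ℕ)
    (hS : ∀ r : ℕ, r.Prime → r ∣ N → r ∈ S) {g : CuspForm (CongruenceSubgroup.Gamma0 N) 2}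
    (hg : g.IsNormalizedEigenform) :
    ∃ lam : heckeAlgebra N 2 S →+* ℂ, ∀ (ℓ : ℕ) (hℓ : ℓ.Prime) (hℓN : ¬ ℓ ∣ N) (hℓS : ℓ ∉ S),
      lam (CuspForm.heckeAlgebra.T hℓ hℓN hℓS) = ModularFormClass.qCoeff g ℓ := by
  have huniq : ∀ x y : ℂ, x • g = y • g → x = y := fun x y h =>
    smul_left_injective ℂ hg.ne_zero h
  choose c hc using fun T : heckeAlgebra N 2 S => ST_exists_smul S hS hg T.1 T.2
  let lamC : heckeAlgebra N 2 S →+* ℂ :=
    { toFun := c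
      map_one' := by
        apply huniq
        rw [← hc, one_smul]
        rfl
      map_mul' := fun S T => by
        apply huniq
        rw [← hc]
        show S.1 (T.1 g) = _
        rw [hc T, map_smul, hc S, smul_smul, mul_comm]
      map_zero' := by
        apply huniq
        rw [← hc, zero_smul]
        rfl
      map_add' := fun S T => by
        apply huniq
        rw [← hc]
        show S.1 g + T.1 g = _
        rw [hc S, hc T, add_smul] }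
  refine ⟨lamC, fun ℓ hℓ hℓN hℓS => ?_⟩
  show c (CuspForm.heckeAlgebra.T hℓ hℓN hℓS) = _
  apply huniq
  rw [← hc]
  exact Fermat.Agent.S29Lib.heckeTLin_eq_smul hg ℓ hℓ hℓN

/-- an integer in a proper ideal containing `p` is divisible by `p` -/
theorem ST_dvd_of_mem {R : Type*} [CommRing R] (𝔪 : Ideal R) (h𝔪 : 𝔪 ≠ ⊤) (p : ℕ)
    [hp : Fact p.Prime] (hp𝔪 : (p : R) ∈ 𝔪) (n : ℤ) (hn : (n : R) ∈ 𝔪) : (p : ℤ) ∣ n := by
  by_contra hnd
  have hcop : IsCoprime (p : ℤ) n :=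
    ((Nat.prime_iff_prime_int.1 hp.out).coprime_iff_not_dvd).2 hnd
  obtain ⟨a, b, hab⟩ := hcop
  apply h𝔪
  rw [Ideal.eq_top_iff_one]
  have : (1 : R) = (a : R) * (p : R) + (b : R) * (n : R) := by
    have := congrArg (Int.cast : ℤ → R) hab
    push_cast at this
    exact this.symm
  rw [this]
  exact 𝔪.add_mem (𝔪.mul_mem_left _ hp𝔪) (𝔪.mul_mem_left _ hn)

theorem start (N : ℕ) [NeZero N] (S : Set ℕ) {p q : ℕ} [Fact p.Prime] (hq : q.Prime)
    (hqN : ¬ q ∣ N) (hqS : q ∉ S) (hS : ∀ r : ℕ, r.Prime → r ∣ N → r ∈ S)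
    (Θ : heckeAlgebra N 2 S →+* Module.End ℤ (EP N ℤ)) (hΘ : Function.Injective Θ)
    (f : CuspForm (Gamma0 N) 2) (hf : f.IsNormalizedEigenform)
    (𝔪 : Ideal (integralClosure ℤ ℂ)) (hmax : 𝔪.IsMaximal) (hp𝔪 : (p : integralClosure ℤ ℂ) ∈ 𝔪)
    (a : ℕ → ℤ)
    (hcong : ∀ ℓ : ℕ, ℓ.Prime → ¬ ℓ ∣ N → ℓ ∉ S → ℓ ≠ q →
      ∃ α : integralClosure ℤ ℂ, (α : ℂ) = qCoeff f ℓ ∧
        α - ((a ℓ : ℤ) : integralClosure ℤ ℂ) ∈ 𝔪)
    (hLR : ∃ α : integralClosure ℤ ℂ, (α : ℂ) = qCoeff f q ∧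
      α ^ 2 - ((q : integralClosure ℤ ℂ) + 1) ^ 2 ∈ 𝔪) :
    ∃ (ε : ℤ) (x : EP N ℤ), (ε = 1 ∨ ε = -1) ∧ (∀ z : EP N ℤ, x ≠ p • z) ∧
      (∀ (ℓ : ℕ) (hℓ : ℓ.Prime) (hℓN : ¬ ℓ ∣ N) (hℓS : ℓ ∉ S), ℓ ≠ q →
        ∃ z : EP N ℤ, Θ (heckeAlgebra.T hℓ hℓN hℓS) x = a ℓ • x + p • z) ∧
      ∃ z : EP N ℤ, Θ (heckeAlgebra.T hq hqN hqS) x = (ε * ((q : ℤ) + 1)) • x + p • z := by
  classical
  obtain ⟨r, ⟨bas⟩⟩ := H3.exists_basis N
  obtain ⟨lam, hlam⟩ := ST_exists_eigenChar S hS hf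
  -- the sign
  obtain ⟨ε, hε, hεq⟩ : ∃ ε : ℤ, (ε = 1 ∨ ε = -1) ∧
      ∃ α : integralClosure ℤ ℂ, (α : ℂ) = qCoeff f q ∧
        α - ((ε * ((q : ℤ) + 1) : ℤ) : integralClosure ℤ ℂ) ∈ 𝔪 := by
    obtain ⟨α, hα, hmem⟩ := hLR
    have hfac : α ^ 2 - ((q : integralClosure ℤ ℂ) + 1) ^ 2
        = (α - ((q : integralClosure ℤ ℂ) + 1)) * (α + ((q : integralClosure ℤ ℂ) + 1)) := by ring
    rw [hfac] at hmem
    rcases hmax.isPrime.mem_or_mem hmem with h | h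
    · refine ⟨1, Or.inl rfl, α, hα, ?_⟩
      push_cast
      rwa [one_mul]
    · refine ⟨-1, Or.inr rfl, α, hα, ?_⟩
      push_cast
      have : α - -1 * ((q : integralClosure ℤ ℂ) + 1) = α + ((q : integralClosure ℤ ℂ) + 1) := by
        ring
      rwa [this]
  -- matrices
  let Θm : heckeAlgebra N 2 S →+* Matrix (Fin r) (Fin r) ℤ :=
    (LinearMap.toMatrixAlgEquiv bas).toRingEquiv.toRingHom.comp Θ
  have hΘm : Function.Injective Θm := (LinearMap.toMatrixAlgEquiv bas).injective.comp hΘ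
  have hΘm' : ∀ t, Θm t = LinearMap.toMatrix bas bas (Θ t) := fun t => rfl
  let I : Set (heckeAlgebra N 2 S) := {t | ∃ n : ℤ, ∃ α : integralClosure ℤ ℂ, (α : ℂ) = lam t ∧
      α - (n : integralClosure ℤ ℂ) ∈ 𝔪}
  let a' : heckeAlgebra N 2 S → ℤ := fun t =>
    if h : ∃ n : ℤ, ∃ α : integralClosure ℤ ℂ, (α : ℂ) = lam t ∧
      α - (n : integralClosure ℤ ℂ) ∈ 𝔪 then h.choose else 0
  have ha' : ∀ t ∈ I, ∃ α : integralClosure ℤ ℂ, (α : ℂ) = lam t ∧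
      α - (a' t : integralClosure ℤ ℂ) ∈ 𝔪 := by
    intro t ht
    have ht' : ∃ n : ℤ, ∃ α : integralClosure ℤ ℂ, (α : ℂ) = lam t ∧
      α - (n : integralClosure ℤ ℂ) ∈ 𝔪 := ht
    simp only [a', dif_pos ht']
    exact ht'.choose_spec
  obtain ⟨v, hv0, hv⟩ := Fermat.Agent.S40Lib.exists_eigenvector_mod Θm hΘm lam 𝔪 hmax hp𝔪 I a' ha'
  obtain ⟨x, hx, hxF⟩ := ST_lift bas p v hv0
  have key : ∀ (t : heckeAlgebra N 2 S) (n : ℤ), (∃ α : integralClosure ℤ ℂ, (α : ℂ) = lam t ∧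
      α - (n : integralClosure ℤ ℂ) ∈ 𝔪) → ∃ z : EP N ℤ, Θ t x = n • x + p • z := by
    rintro t n ⟨α, hα, hmem⟩
    have htI : t ∈ I := ⟨n, α, hα, hmem⟩
    obtain ⟨α', hα', hmem'⟩ := ha' t htI
    have hαα : α' = α := Subtype.ext (by rw [hα, hα'])
    have hdvd : (p : ℤ) ∣ n - a' t := by
      apply ST_dvd_of_mem 𝔪 hmax.ne_top p hp𝔪
      have := 𝔪.sub_mem hmem' (hαα ▸ hmem)
      push_cast
      convert this using 1
      ring
    apply hxF
    rw [← hΘm', hv t htI]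
    congr 1
    exact ((ZMod.intCast_eq_intCast_iff_dvd_sub _ _ _).2 hdvd)
  refine ⟨ε, x, hε, hx, ?_, ?_⟩
  · intro ℓ hℓ hℓN hℓS hℓq
    apply key
    obtain ⟨α, hα, hmem⟩ := hcong ℓ hℓ hℓN hℓS hℓq
    exact ⟨α, by rw [hα, hlam], hmem⟩
  · apply key
    obtain ⟨α, hα, hmem⟩ := hεq
    exact ⟨α, by rw [hα, hlam], hmem⟩

end Fermat.Agent.S41Lib
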