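import Fermat.Agent.ES.KDefs

/-!
# S41, chapters F2-F4: definitions

* `TransferU`, `IsU` : the operator `U_q` on homomorphisms `Γ₀(N) → B` (`q ∣ N`)
* `KerB ι φ` : the transfer of `φ` along `ι : Γ₀(N') → Γ₀(N)` vanishes (spec form)
-/

set_option autoImplicit false

open CongruenceSubgroup Matrix.SpecialLinearGroup
open scoped MatrixGroups

namespace Fermat.Agent.S41Lib

/-- `β_x γ = γ'_x β_{π x}` for the standard representatives `β_x = heckeMatrix q x` of `U_q` -/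
def TransferU (N q : ℕ) (γ : Gamma0 N) (γ' : ZMod q → Gamma0 N) : Prop :=
  ∃ π : Equiv.Perm (ZMod q), ∀ x,
    ModularForm.heckeMatrix q x.val * mapGL ℝ (γ : SL(2, ℤ)) =
      mapGL ℝ (γ' x : SL(2, ℤ)) * ModularForm.heckeMatrix q (π x).val

/-- `φ' = U_q φ`, i.e. `φ'(γ) = ∑_x φ(γ'_x)` -/
def IsU (N q : ℕ) [NeZero q] {B : Type*} [AddCommGroup B] (φ φ' : Additive (Gamma0 N) →+ B) :
    Prop :=
  ∀ (γ : Gamma0 N) (γ' : ZMod q → Gamma0 N), TransferU N q γ γ' →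
    φ' (Additive.ofMul γ) = ∑ x, φ (Additive.ofMul (γ' x))

/-- the transfer of `φ` along `ι` is zero -/
def KerB {N' N : ℕ} {B : Type*} [AddCommGroup B] (ι : Gamma0 N' →* Gamma0 N)
    (φ : Additive (Gamma0 N') →+ B) : Prop :=
  ∀ (I : Type) [Fintype I] (t : I → Gamma0 N),
    (Function.Bijective fun x : Gamma0 N' × I => ι x.1 * t x.2) →
    ∀ (g : Gamma0 N) (s : Equiv.Perm I) (η : I → Gamma0 N'),
      (∀ i, t i * g = ι (η i) * t (s i)) → ∑ i, φ (Additive.ofMul (η i)) = 0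

end Fermat.Agent.S41Lib
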