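import Fermat.Agent.ES.Theta
import Fermat.Agent.S41.F.UDefs
import Fermat.Prelude.Thm_ModularForm_heckeU_slash_eq_self_of_mem_Gamma0

/-!
# S41 (TH): the lattice `EP N ℤ` is a faithful module over `heckeAlgebra N 2 S`, for every `S`;
`T_ℓ` acts by the transfer `IsTr`, `U_q` by `IsU`  (copy of `ES/Theta.lean` with one more generator)
-/

set_option autoImplicit false
set_option synthInstance.maxHeartbeats 400000

open AlgebraicCurve ModularCurve CongruenceSubgroup UpperHalfPlane ModularForm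
open scoped MatrixGroups Manifold

namespace Fermat.Agent.S41Lib

open Fermat.Agent.ESLib Fermat.Agent.ESLib.H3
open P2MW.S_ModularForm_heckeT_slash_eq_self_of_mem_Gamma0.ModularForm.HeckeSlashInvariance
open ModularCurve.Period Matrix.SpecialLinearGroup

noncomputable section

/-- every `γ` has `U`-transfer data -/
theorem exists_transferU (N : ℕ) {q : ℕ} [NeZero q] (hqN : q ∣ N) (γ : Gamma0 N) :
    ∃ γ', TransferU N q γ γ' := by
  have hcN : (N : ℤ) ∣ (γ : SL(2, ℤ)) 1 0 :=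
    (ZMod.intCast_zmod_eq_zero_iff_dvd _ _).mp (Gamma0_mem.mp γ.2)
  have hc : (q : ℤ) ∣ (γ : SL(2, ℤ)) 1 0 := (Int.natCast_dvd_natCast.mpr hqN).trans hcN
  choose g' hg' hmul using heckeMatrix_mul_of_dvd (γ : SL(2, ℤ)) hc
  refine ⟨fun x => ⟨g' x, ?_⟩,
    affinePerm (γ : SL(2, ℤ)) ((ZMod.intCast_zmod_eq_zero_iff_dvd _ _).mpr hc), hmul⟩
  rw [Gamma0_mem, hg' x]
  push_cast
  rw [Gamma0_mem.mp γ.2, mul_zero]

theorem TH_det {q : ℕ} (h0 : q ≠ 0) (x : ZMod q) :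
    (ModularForm.heckeMatrix q x.val).val.det = (q : ℝ) := by
  rw [ModularForm.val_heckeMatrix h0, Matrix.det_fin_two_of]; ring

theorem TH_one_zero {q : ℕ} (h0 : q ≠ 0) (x : ZMod q) :
    ModularForm.heckeMatrix q x.val 1 0 = 0 := by
  show (ModularForm.heckeMatrix q x.val).val 1 0 = 0
  rw [ModularForm.val_heckeMatrix h0]; simp

/-- conjugated representatives -/
def TH_repJ (q : ℕ) (x : ZMod q) : GL (Fin 2) ℝ := J * ModularForm.heckeMatrix q x.val * J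

theorem TH_repJ_mul {q : ℕ} {x y : ZMod q} {g g' : SL(2, ℤ)}
    (h : ModularForm.heckeMatrix q x.val * mapGL ℝ g = mapGL ℝ g' * ModularForm.heckeMatrix q y.val) :
    TH_repJ q x * mapGL ℝ (jConjSL g) = mapGL ℝ (jConjSL g') * TH_repJ q y := by
  rw [mapGL_jConjSL, mapGL_jConjSL, TH_repJ, TH_repJ]
  calc J * ModularForm.heckeMatrix q x.val * J * (J * mapGL ℝ g * J)
      = J * (ModularForm.heckeMatrix q x.val * (J * J) * mapGL ℝ g) * J := by group
    _ = J * (mapGL ℝ g' * ModularForm.heckeMatrix q y.val) * J := by rw [J_mul_J, mul_one, h]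
    _ = J * mapGL ℝ g' * (J * J) * ModularForm.heckeMatrix q y.val * J := by
        rw [J_mul_J]; group
    _ = J * mapGL ℝ g' * J * (J * ModularForm.heckeMatrix q y.val * J) := by group

theorem TH_repJ_eq {q : ℕ} [NeZero q] (x : ZMod q) :
    ∃ n : ℤ, TH_repJ q x = mapGL ℝ (ModularGroup.T ^ n) * ModularForm.heckeMatrix q (-x).val := by
  have h0 : q ≠ 0 := NeZero.ne q
  obtain ⟨e, he⟩ : (q : ℤ) ∣ (x.val : ℤ) + ((-x).val : ℤ) := by
    rw [← ZMod.intCast_zmod_eq_zero_iff_dvd]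
    push_cast
    rw [ZMod.natCast_zmod_val, ZMod.natCast_zmod_val, add_neg_cancel]
  refine ⟨-e, ?_⟩
  rw [TH_repJ]
  have heR : (x.val : ℝ) + ((-x).val : ℝ) = (q : ℝ) * (e : ℝ) := by exact_mod_cast he
  ext a b
  show (J.val * (ModularForm.heckeMatrix q x.val).val * J.val) a b
    = ((mapGL ℝ (ModularGroup.T ^ (-e))).val * (ModularForm.heckeMatrix q (-x).val).val) a b
  rw [ModularForm.val_heckeMatrix h0, ModularForm.val_heckeMatrix h0, val_J]
  have hT : (mapGL ℝ (ModularGroup.T ^ (-e))).val = !![(1 : ℝ), -(e : ℝ); 0, 1] := by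
    ext a b
    have h1 : (mapGL ℝ (ModularGroup.T ^ (-e))).val a b
        = (((ModularGroup.T ^ (-e) : SL(2, ℤ)) : Matrix (Fin 2) (Fin 2) ℤ) a b : ℝ) :=
      mapGL_apply _ a b
    rw [h1, ModularGroup.coe_T_zpow]
    fin_cases a <;> fin_cases b <;> simp
  rw [hT]
  fin_cases a <;> fin_cases b <;>
    simp [Matrix.mul_apply, Fin.sum_univ_two, -ZMod.natCast_val]
  linarith

variable {N : ℕ} [NeZero N]

omit [NeZero N] in
theorem TH_sum_slash_repJ {q : ℕ} [NeZero q] (f : CuspForm (Gamma0 N) 2) :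
    ∑ x, (f : ℍ → ℂ) ∣[(2 : ℤ)] TH_repJ q x
      = ∑ x : ZMod q, (f : ℍ → ℂ) ∣[(2 : ℤ)] ModularForm.heckeMatrix q x.val := by
  rw [← Equiv.sum_comp (Equiv.neg (ZMod q))
    (fun x : ZMod q => (f : ℍ → ℂ) ∣[(2 : ℤ)] ModularForm.heckeMatrix q x.val)]
  refine Finset.sum_congr rfl fun x _ => ?_
  obtain ⟨n, hn⟩ := TH_repJ_eq x
  rw [hn, SlashAction.slash_mul, slash_T_zpow]
  rfl

theorem TH_det_repJ {q : ℕ} (h0 : q ≠ 0) (x : ZMod q) : (TH_repJ q x).val.det = (q : ℝ) := by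
  show (J.val * (ModularForm.heckeMatrix q x.val).val * J.val).det = _
  rw [Matrix.det_mul, Matrix.det_mul, TH_det h0, val_J, Matrix.det_fin_two_of]
  ring

theorem TH_repJ_one_zero {q : ℕ} (h0 : q ≠ 0) (x : ZMod q) : TH_repJ q x 1 0 = 0 := by
  have h := TH_one_zero h0 x
  show (J.val * (ModularForm.heckeMatrix q x.val).val * J.val) 1 0 = 0
  rw [val_J]
  simp [Matrix.mul_apply, Fin.sum_univ_two, Matrix.vecMul, dotProduct]
  exact h

/-- `U_q` acts on periods by `IsU` -/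
theorem isU_periodMap {q : ℕ} [NeZero q] (hqN : q ∣ N) (f : CuspForm (Gamma0 N) 2) :
    IsU N q (periodMap N f) (periodMap N (CuspForm.heckeULin 2 hqN f)) := by
  rintro γ γ' ⟨π, h⟩
  exact Fermat.Agent.S16Lib.periodMap_hecke (fun x : ZMod q => ModularForm.heckeMatrix q x.val)
    (q : ℝ) (by exact_mod_cast Nat.pos_of_ne_zero (NeZero.ne q))
    (TH_det (NeZero.ne q)) (TH_one_zero (NeZero.ne q)) _
    (fun f => by rw [CuspForm.coe_heckeULin_apply, heckeU_eq_sum_zmod]) γ π γ' h f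

theorem isU_charInvolution {q : ℕ} [NeZero q] (hqN : q ∣ N) (f : CuspForm (Gamma0 N) 2) :
    IsU N q (charInvolution N ℂ ℂ (periodMap N f))
      (charInvolution N ℂ ℂ (periodMap N (CuspForm.heckeULin 2 hqN f))) := by
  rintro γ γ' ⟨π, h⟩
  exact Fermat.Agent.S16Lib.periodMap_hecke (TH_repJ q) (q : ℝ)
    (by exact_mod_cast Nat.pos_of_ne_zero (NeZero.ne q))
    (TH_det_repJ (NeZero.ne q)) (TH_repJ_one_zero (NeZero.ne q)) _
    (fun f => by rw [CuspForm.coe_heckeULin_apply, heckeU_eq_sum_zmod, TH_sum_slash_repJ])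
    (jConjGamma0 N γ) π (fun x => jConjGamma0 N (γ' x)) (fun x => TH_repJ_mul (h x)) f

omit [NeZero N] in
theorem isU_add {q : ℕ} [NeZero q] {B : Type*} [AddCommGroup B]
    {φ φ' ψ ψ' : Additive (Gamma0 N) →+ B} (h : IsU N q φ φ') (h' : IsU N q ψ ψ') :
    IsU N q (φ + ψ) (φ' + ψ') := by
  intro γ γ' hT
  simp only [AddMonoidHom.add_apply]
  rw [h γ γ' hT, h' γ γ' hT, Finset.sum_add_distrib]

omit [NeZero N] in
theorem isU_sub {q : ℕ} [NeZero q] {B : Type*} [AddCommGroup B]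
    {φ φ' ψ ψ' : Additive (Gamma0 N) →+ B} (h : IsU N q φ φ') (h' : IsU N q ψ ψ') :
    IsU N q (φ - ψ) (φ' - ψ') := by
  intro γ γ' hT
  simp only [AddMonoidHom.sub_apply]
  rw [h γ γ' hT, h' γ γ' hT, Finset.sum_sub_distrib]

theorem isU_pair {q : ℕ} [NeZero q] (hqN : q ∣ N)
    (v : CuspForm (Gamma0 N) 2 × CuspForm (Gamma0 N) 2) :
    IsU N q (periodHomPair N v)
      (periodHomPair N (CuspForm.heckeULin 2 hqN v.1, CuspForm.heckeULin 2 hqN v.2)) := by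
  obtain ⟨f, g⟩ := v
  rw [periodHomPair_apply, periodHomPair_apply]
  exact isU_add (isU_add (isU_periodMap hqN f) (isU_charInvolution hqN f))
    (isU_sub (isU_periodMap hqN g) (isU_charInvolution hqN g))

/-- the diagonal action of the Hecke algebra on pairs of cusp forms -/
def rhoS (N : ℕ) [NeZero N] (S : Set ℕ) :
    CuspForm.heckeAlgebra N 2 S →+*
      Module.End ℂ (CuspForm (Gamma0 N) 2 × CuspForm (Gamma0 N) 2) :=
  ((LinearMap.prodMapRingHom ℂ (CuspForm (Gamma0 N) 2) (CuspForm (Gamma0 N) 2)).comp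
    ((RingHom.id _).prod (RingHom.id _))).comp
    (CuspForm.heckeAlgebra N 2 S).val.toRingHom

theorem rhoS_apply (S : Set ℕ) (T : CuspForm.heckeAlgebra N 2 S)
    (v : CuspForm (Gamma0 N) 2 × CuspForm (Gamma0 N) 2) :
    rhoS N S T v = ((T : Module.End ℂ (CuspForm (Gamma0 N) 2)) v.1,
      (T : Module.End ℂ (CuspForm (Gamma0 N) 2)) v.2) := rfl

theorem rhoS_injective (S : Set ℕ) : Function.Injective (rhoS N S) := by
  intro T T' h
  apply Subtype.ext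
  ext1 f
  have := congrArg Prod.fst (LinearMap.congr_fun h (f, 0))
  rwa [rhoS_apply, rhoS_apply] at this

theorem stable_U (j : EP N ℤ →+ CuspForm (Gamma0 N) 2 × CuspForm (Gamma0 N) 2)
    (hj : ∀ φ : EP N ℤ, periodHomPair N (j φ) = cst (φ : Additive (Gamma0 N) →+ ℤ))
    {q : ℕ} [NeZero q] (hqN : q ∣ N) (φ : EP N ℤ) :
    ∃ φ' : EP N ℤ, j φ' = (CuspForm.heckeULin 2 hqN (j φ).1,
      CuspForm.heckeULin 2 hqN (j φ).2) := by
  have h1 := isU_pair hqN (j φ)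
  rw [hj] at h1
  set ψ' := periodHomPair N (CuspForm.heckeULin 2 hqN (j φ).1,
      CuspForm.heckeULin 2 hqN (j φ).2) with hψ'
  obtain ⟨φ', hφ'⟩ := exists_cst_eq ψ' (by
    intro γ
    obtain ⟨γ', hγ'⟩ := exists_transferU N hqN (Additive.toMul γ)
    refine ⟨∑ x, (φ : Additive (Gamma0 N) →+ ℤ) (Additive.ofMul (γ' x)), ?_⟩
    have := h1 _ γ' hγ'
    rw [Int.cast_sum]
    exact this)
  have hmem : φ' ∈ EP N ℤ := by
    apply mem_EP_of_cst
    rw [hφ', ← range_pair]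
    exact ⟨_, rfl⟩
  refine ⟨⟨φ', hmem⟩, ?_⟩
  apply (Fermat.Agent.S21.result N).1
  rw [hj, hφ']

theorem stableS (S : Set ℕ) (j : EP N ℤ →+ CuspForm (Gamma0 N) 2 × CuspForm (Gamma0 N) 2)
    (hj : ∀ φ : EP N ℤ, periodHomPair N (j φ) = cst (φ : Additive (Gamma0 N) →+ ℤ))
    (T : CuspForm.heckeAlgebra N 2 S) (φ : EP N ℤ) : ∃ φ' : EP N ℤ, j φ' = rhoS N S T (j φ) := by
  obtain ⟨t, ht⟩ := T
  simp only [rhoS_apply]
  induction ht using Algebra.adjoin_induction generalizing φ with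
  | mem x hx =>
    rcases hx with ⟨ℓ, hℓ, hℓN, -, rfl⟩ | ⟨q, hqN, hq, -, rfl⟩
    · exact stable_T j hj hℓ hℓN φ
    · have : NeZero q := ⟨hq.ne_zero⟩
      exact stable_U j hj hqN φ
  | algebraMap n =>
    refine ⟨n • φ, ?_⟩
    rw [map_zsmul, Module.algebraMap_end_apply, Module.algebraMap_end_apply]
    rfl
  | add x y _ _ hx hy =>
    obtain ⟨a, ha⟩ := hx φ
    obtain ⟨b, hb⟩ := hy φ
    refine ⟨a + b, ?_⟩
    rw [map_add, ha, hb]
    rfl
  | mul x y _ _ hx hy =>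
    obtain ⟨b, hb⟩ := hy φ
    obtain ⟨a, ha⟩ := hx b
    refine ⟨a, ?_⟩
    rw [ha, hb]
    rfl

end

/-- (TH) -/
theorem exists_thetaU (N : ℕ) [NeZero N] (S : Set ℕ) :
    ∃ Θ : CuspForm.heckeAlgebra N 2 S →+* Module.End ℤ (EP N ℤ),
      Function.Injective Θ ∧
      (∀ (ℓ : ℕ) (hℓ : ℓ.Prime) (hℓN : ¬ ℓ ∣ N) (hℓS : ℓ ∉ S) (φ : EP N ℤ),
        haveI : NeZero ℓ := ⟨hℓ.ne_zero⟩
        IsTr N ℓ (φ : Additive (Gamma0 N) →+ ℤ)
          ((Θ (CuspForm.heckeAlgebra.T hℓ hℓN hℓS) φ : EP N ℤ) : Additive (Gamma0 N) →+ ℤ)) ∧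
      (∀ (q : ℕ) (hq : q.Prime) (hqN : q ∣ N) (hqS : q ∉ S) (φ : EP N ℤ),
        haveI : NeZero q := ⟨hq.ne_zero⟩
        IsU N q (φ : Additive (Gamma0 N) →+ ℤ)
          ((Θ (CuspForm.heckeAlgebra.U hq hqN hqS) φ : EP N ℤ) : Additive (Gamma0 N) →+ ℤ)) := by
  obtain ⟨j, hj⟩ := H3.exists_j (N := N)
  obtain ⟨Θ, hΘ⟩ := H3.exists_restrict j (H3.j_injective j hj) (rhoS N S) (stableS S j hj)
  refine ⟨Θ, H3.restrict_injective j (rhoS N S) (rhoS_injective S) (H3.span_range_j j hj) Θ hΘ,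
    ?_, ?_⟩
  · intro ℓ hℓ hℓN hℓS φ
    haveI : NeZero ℓ := ⟨hℓ.ne_zero⟩
    have h1 := H3.isTr_pair hℓ hℓN (j φ)
    have h2 : (CuspForm.heckeTLin 2 hℓ hℓN (j φ).1, CuspForm.heckeTLin 2 hℓ hℓN (j φ).2)
        = j (Θ (CuspForm.heckeAlgebra.T hℓ hℓN hℓS) φ) := by
      rw [hΘ]
      rfl
    rw [h2, hj, hj] at h1
    intro γ γ' hT
    have h3 := h1 γ γ' hT
    simp only [H3.cst_apply] at h3
    exact_mod_cast h3
  · intro q hq hqN hqS φ
    haveI : NeZero q := ⟨hq.ne_zero⟩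
    have h1 := isU_pair hqN (j φ)
    have h2 : (CuspForm.heckeULin 2 hqN (j φ).1, CuspForm.heckeULin 2 hqN (j φ).2)
        = j (Θ (CuspForm.heckeAlgebra.U hq hqN hqS) φ) := by
      rw [hΘ]
      rfl
    rw [h2, hj, hj] at h1
    intro γ γ' hT
    have h3 := h1 γ γ' hT
    simp only [H3.cst_apply] at h3
    exact_mod_cast h3

end Fermat.Agent.S41Lib
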