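import Fermat.Agent.S41.F1.AB
import Fermat.Prelude.Def_ModularCurve_PeriodHomPair

/-!
# S41, top: the involution `ι_*` on `EP N B` (`ι = diag(-1, 1)`)
-/

set_option autoImplicit false

open CongruenceSubgroup Matrix.SpecialLinearGroup ModularCurve.Period
open scoped MatrixGroups

namespace Fermat.Agent.S41Lib

open Fermat.Agent.ESLib

/-- `φ ↦ φ ∘ Ad ι` -/
def ioEP (N : ℕ) (B : Type*) [AddCommGroup B] : EP N B →+ EP N B :=
  AddMonoidHom.mk' (fun φ => ⟨(φ : Additive (Gamma0 N) →+ B).comp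
      (MonoidHom.toAdditive (jConjGamma0 N)), fun γ hγ => φ.2 (jConjGamma0 N γ) (by
        have htr : (((jConjGamma0 N γ : Gamma0 N) : SL(2, ℤ)) : Matrix (Fin 2) (Fin 2) ℤ).trace
            = (((γ : Gamma0 N) : SL(2, ℤ)) : Matrix (Fin 2) (Fin 2) ℤ).trace := by
          rw [jConjGamma0_coe, jConjSL_coe, jConjMat_trace]
        rw [htr]; exact hγ)⟩) (fun _ _ => rfl)

@[simp] theorem ioEP_apply (N : ℕ) {B : Type*} [AddCommGroup B] (φ : EP N B) (γ : Gamma0 N) :
    (ioEP N B φ : Additive (Gamma0 N) →+ B) (Additive.ofMul γ) =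
      (φ : Additive (Gamma0 N) →+ B) (Additive.ofMul (jConjGamma0 N γ)) := rfl

theorem ioEP_ioEP (N : ℕ) {B : Type*} [AddCommGroup B] (φ : EP N B) :
    ioEP N B (ioEP N B φ) = φ := by
  apply Subtype.ext
  refine AddMonoidHom.ext fun γ => ?_
  show (φ : Additive (Gamma0 N) →+ B)
    (Additive.ofMul (jConjGamma0 N (jConjGamma0 N (Additive.toMul γ)))) = _
  rw [jConjGamma0_jConjGamma0]
  rfl

end Fermat.Agent.S41Lib
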