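import Fermat.Agent.ES.Theta

/-!
# S41, leaf (T1): `IsTr` determines its result
-/

set_option autoImplicit false
set_option synthInstance.maxHeartbeats 400000

open CongruenceSubgroup Matrix.SpecialLinearGroup
open scoped MatrixGroups

namespace Fermat.Agent.S41Lib

open Fermat.Agent.ESLib

theorem isTr_unique {N ℓ : ℕ} [NeZero N] [NeZero ℓ] (hℓ : ℓ.Prime) (hℓN : ¬ ℓ ∣ N)
    {B : Type*} [AddCommGroup B] {φ φ₁ φ₂ : Additive (Gamma0 N) →+ B}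
    (h₁ : IsTr N ℓ φ φ₁) (h₂ : IsTr N ℓ φ φ₂) : φ₁ = φ₂ := by
  refine AddMonoidHom.ext fun γ => ?_
  obtain ⟨γ', hγ'⟩ := exists_transfer N hℓ hℓN (Additive.toMul γ)
  have e1 : φ₁ γ = _ := h₁ _ γ' hγ'
  have e2 : φ₂ γ = _ := h₂ _ γ' hγ'
  rw [e1, e2]

end Fermat.Agent.S41Lib
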