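import Fermat.Agent.S41.F.BijIncl

/-!
# S41 (R2): `t'_i` are representatives of `adD Γ₀(Nq) \ Γ₀(N)`
-/

set_option autoImplicit false
set_option synthInstance.maxHeartbeats 400000

open CongruenceSubgroup Matrix.SpecialLinearGroup
open scoped MatrixGroups

namespace Fermat.Agent.S41Lib

section Reps

variable {N q : ℕ} {x z : ℤ}

theorem R2_range (hq0 : q ≠ 0)
    (adD : Gamma0 (N * q) →* Gamma0 N) (ha : IsAdD adD) (g : Gamma0 N) :
    (q : ℤ) ∣ (g : SL(2, ℤ)) 0 1 ↔ ∃ γ, adD γ = g := by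
  have hqZ : (q : ℤ) ≠ 0 := by exact_mod_cast hq0
  constructor
  · rintro ⟨b', hb'⟩
    have hN : (N : ℤ) ∣ (g : SL(2, ℤ)) 1 0 :=
      (ZMod.intCast_zmod_eq_zero_iff_dvd _ _).1 (Gamma0_mem.1 g.2)
    have hdet : (g : SL(2, ℤ)) 0 0 * (g : SL(2, ℤ)) 1 1 - (g : SL(2, ℤ)) 0 1 * (g : SL(2, ℤ)) 1 0 = 1 := by
      have := (g : SL(2, ℤ)).det_coe
      rwa [Matrix.det_fin_two] at this
    let γ₀ : SL(2, ℤ) := ⟨!![(g : SL(2, ℤ)) 0 0, b'; q * (g : SL(2, ℤ)) 1 0, (g : SL(2, ℤ)) 1 1], by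
      rw [Matrix.det_fin_two_of]
      rw [hb'] at hdet
      linear_combination hdet⟩
    have hγ₀ : γ₀ ∈ Gamma0 (N * q) := by
      rw [Gamma0_mem, ZMod.intCast_zmod_eq_zero_iff_dvd]
      show ((N * q : ℕ) : ℤ) ∣ q * (g : SL(2, ℤ)) 1 0
      push_cast
      rw [mul_comm (N : ℤ)]
      exact mul_dvd_mul_left _ hN
    refine ⟨⟨γ₀, hγ₀⟩, ?_⟩
    apply Subtype.ext
    ext i j
    fin_cases i <;> fin_cases j
    · exact ha.e00 _
    · exact (ha.e01 _).trans hb'.symm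
    · exact mul_left_cancel₀ hqZ (ha.e10 _)
    · exact ha.e11 _
  · rintro ⟨γ, rfl⟩
    rw [ha.e01]
    exact dvd_mul_right _ _

theorem bij_adD (hq : q.Prime) (h : (q : ℤ) * x - N * z = 1)
    (adD : Gamma0 (N * q) →* Gamma0 N) (ha : IsAdD adD) :
    Function.Bijective fun y : Gamma0 (N * q) × Option (ZMod q) => adD y.1 * tD h y.2 := by
  have : Fact q.Prime := ⟨hq⟩
  have hNz := R1_Nz h
  have hqZ : (q : ℤ) ≠ 0 := by exact_mod_cast hq.ne_zero
  have key : ∀ m : ℤ, (q : ℤ) ∣ m ↔ (m : ZMod q) = 0 :=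
    fun m => (ZMod.intCast_zmod_eq_zero_iff_dvd m q).symm
  refine R1_bij_of adD (tD h) ?_ (fun g => (q : ℤ) ∣ (g : SL(2, ℤ)) 0 1)
    (fun g => R2_range hq.ne_zero adD ha g) ?_ ?_
  · intro γ₁ γ₂ h12
    apply Subtype.ext
    ext i j
    fin_cases i <;> fin_cases j
    · show (γ₁ : SL(2, ℤ)) 0 0 = (γ₂ : SL(2, ℤ)) 0 0
      rw [← ha.e00, ← ha.e00, h12]
    · show (γ₁ : SL(2, ℤ)) 0 1 = (γ₂ : SL(2, ℤ)) 0 1
      apply mul_left_cancel₀ hqZ
      rw [← ha.e01, ← ha.e01, h12]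
    · show (γ₁ : SL(2, ℤ)) 1 0 = (γ₂ : SL(2, ℤ)) 1 0
      rw [← ha.e10, ← ha.e10, h12]
    · show (γ₁ : SL(2, ℤ)) 1 1 = (γ₂ : SL(2, ℤ)) 1 1
      rw [← ha.e11, ← ha.e11, h12]
  · intro g
    by_cases hc : (q : ℤ) ∣ (g : SL(2, ℤ)) 0 1
    · exact ⟨none, by simpa [tD] using hc⟩
    · set a : ℤ := (g : SL(2, ℤ)) 0 0 with hadef
      set b : ℤ := (g : SL(2, ℤ)) 0 1 with hbdef
      have hb0 : (b : ZMod q) ≠ 0 := fun h0 => hc ((key _).2 h0)
      refine ⟨some ((x : ZMod q) - (a : ZMod q) * (b : ZMod q)⁻¹), ?_⟩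
      show (q : ℤ) ∣ ((g : SL(2, ℤ)) * ((tDg h _ : Gamma0 N) : SL(2, ℤ))⁻¹) 0 1
      rw [R1_entry01, key]
      show ((-(a * (tDm N q x z _) 0 1) + b * (tDm N q x z _) 0 0 : ℤ) : ZMod q) = 0
      simp only [tDm, Matrix.of_apply, Matrix.cons_val_zero, Matrix.cons_val_one,
        Matrix.cons_val', Matrix.cons_val_fin_one]
      push_cast
      rw [ZMod.natCast_zmod_val, ZMod.natCast_self, hNz]
      field_simp
      ring
  · intro y y' hy
    rcases y with _ | j <;> rcases y' with _ | j'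
    · rfl
    · exfalso
      change (q : ℤ) ∣ ((1 : SL(2, ℤ)) * ((tDg h _ : Gamma0 N) : SL(2, ℤ))⁻¹) 0 1 at hy
      rw [R1_entry01, key] at hy
      change ((-((1 : SL(2, ℤ)) 0 0 * (tDm N q x z _) 0 1) + (1 : SL(2, ℤ)) 0 1 * (tDm N q x z _) 0 0 : ℤ) :
        ZMod q) = 0 at hy
      simp only [tDm, Matrix.of_apply, Matrix.cons_val_zero, Matrix.cons_val_one,
        Matrix.cons_val', Matrix.cons_val_fin_one, coe_one, Matrix.one_apply_eq] at hy
      push_cast at hy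
      rw [ZMod.natCast_self] at hy
      simp at hy
    · exfalso
      change (q : ℤ) ∣ (((tDg h _ : Gamma0 N) : SL(2, ℤ)) * (1 : SL(2, ℤ))⁻¹) 0 1 at hy
      rw [R1_entry01, key] at hy
      change ((-((tDm N q x z _) 0 0 * (1 : SL(2, ℤ)) 0 1) + (tDm N q x z _) 0 1 * (1 : SL(2, ℤ)) 0 0 : ℤ) :
        ZMod q) = 0 at hy
      simp only [tDm, Matrix.of_apply, Matrix.cons_val_zero, Matrix.cons_val_one,
        Matrix.cons_val', Matrix.cons_val_fin_one, coe_one, Matrix.one_apply_eq] at hy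
      push_cast at hy
      rw [ZMod.natCast_self] at hy
      simp at hy
    · change (q : ℤ) ∣ (((tDg h _ : Gamma0 N) : SL(2, ℤ)) *
        ((tDg h _ : Gamma0 N) : SL(2, ℤ))⁻¹) 0 1 at hy
      rw [R1_entry01, key] at hy
      change ((-((tDm N q x z _) 0 0 * (tDm N q x z _) 0 1) + (tDm N q x z _) 0 1 * (tDm N q x z _) 0 0 : ℤ) :
        ZMod q) = 0 at hy
      simp only [tDm, Matrix.of_apply, Matrix.cons_val_zero, Matrix.cons_val_one,
        Matrix.cons_val', Matrix.cons_val_fin_one] at hy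
      push_cast at hy
      rw [ZMod.natCast_zmod_val, ZMod.natCast_zmod_val, ZMod.natCast_self, hNz] at hy
      congr 1
      linear_combination hy

end Reps

end Fermat.Agent.S41Lib
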