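import Fermat.Agent.S41.F.RepDefs

/-!
# S41 (R1): `t_j` are representatives of `Γ₀(Nq) \ Γ₀(N)`
-/

set_option autoImplicit false
set_option synthInstance.maxHeartbeats 400000

open CongruenceSubgroup Matrix.SpecialLinearGroup
open scoped MatrixGroups

namespace Fermat.Agent.S41Lib

/-- abstract criterion -/
theorem R1_bij_of {Γ' Γ I : Type*} [Group Γ'] [Group Γ] (ι : Γ' →* Γ) (t : I → Γ)
    (hinj : Function.Injective ι) (P : Γ → Prop) (hP : ∀ g, P g ↔ ∃ γ, ι γ = g)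
    (hs : ∀ g, ∃ y, P (g * (t y)⁻¹)) (hd : ∀ y y', P (t y * (t y')⁻¹) → y = y') :
    Function.Bijective fun y : Γ' × I => ι y.1 * t y.2 := by
  constructor
  · rintro ⟨γ₁, y₁⟩ ⟨γ₂, y₂⟩ h
    simp only at h
    have h1 : t y₁ * (t y₂)⁻¹ = ι (γ₁⁻¹ * γ₂) := by
      rw [map_mul, map_inv, eq_inv_mul_iff_mul_eq, ← mul_assoc, h, mul_inv_cancel_right]
    have h2 : y₁ = y₂ := hd _ _ ((hP _).2 ⟨_, h1.symm⟩)
    subst h2
    rw [mul_left_inj] at h
    rw [hinj h]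
  · intro g
    obtain ⟨y, hy⟩ := hs g
    obtain ⟨γ, hγ⟩ := (hP _).1 hy
    exact ⟨(γ, y), by simp only [hγ, inv_mul_cancel_right]⟩

theorem R1_entry10 (A B : SL(2, ℤ)) : (A * B⁻¹) 1 0 = A 1 0 * B 1 1 - A 1 1 * B 1 0 := by
  rw [coe_mul, coe_inv, Matrix.adjugate_fin_two, Matrix.mul_apply, Fin.sum_univ_two]
  simp
  ring

theorem R1_entry01 (A B : SL(2, ℤ)) : (A * B⁻¹) 0 1 = - (A 0 0 * B 0 1) + A 0 1 * B 0 0 := by
  rw [coe_mul, coe_inv, Matrix.adjugate_fin_two, Matrix.mul_apply, Fin.sum_univ_two]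
  simp

section Reps

variable {N q : ℕ} {x z : ℤ}

theorem R1_Nz (h : (q : ℤ) * x - N * z = 1) : ((N : ZMod q) * (z : ZMod q)) = -1 := by
  have := congrArg (Int.cast : ℤ → ZMod q) h
  push_cast at this
  rw [ZMod.natCast_self, zero_mul, zero_sub] at this
  rw [← this, neg_neg]

theorem R1_coprime (h : (q : ℤ) * x - N * z = 1) : IsCoprime (N : ℤ) (q : ℤ) :=
  ⟨-z, x, by linear_combination h⟩

theorem R1_range (h : (q : ℤ) * x - N * z = 1)
    (incl : Gamma0 (N * q) →* Gamma0 N) (hi : IsIncl incl) (g : Gamma0 N) :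
    (q : ℤ) ∣ (g : SL(2, ℤ)) 1 0 ↔ ∃ γ, incl γ = g := by
  constructor
  · intro hd
    have hN : (N : ℤ) ∣ (g : SL(2, ℤ)) 1 0 :=
      (ZMod.intCast_zmod_eq_zero_iff_dvd _ _).1 (Gamma0_mem.1 g.2)
    have hNq : ((N * q : ℕ) : ℤ) ∣ (g : SL(2, ℤ)) 1 0 := by
      push_cast
      exact (R1_coprime h).mul_dvd hN hd
    refine ⟨⟨(g : SL(2, ℤ)), Gamma0_mem.2 ((ZMod.intCast_zmod_eq_zero_iff_dvd _ _).2 hNq)⟩, ?_⟩
    apply Subtype.ext
    rw [hi.coe]
  · rintro ⟨γ, rfl⟩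
    rw [hi.coe]
    have : ((N * q : ℕ) : ℤ) ∣ (γ : SL(2, ℤ)) 1 0 :=
      (ZMod.intCast_zmod_eq_zero_iff_dvd _ _).1 (Gamma0_mem.1 γ.2)
    exact (Dvd.intro_left (N : ℤ) (by push_cast; ring)).trans this

theorem bij_incl (hq : q.Prime) (h : (q : ℤ) * x - N * z = 1)
    (incl : Gamma0 (N * q) →* Gamma0 N) (hi : IsIncl incl) :
    Function.Bijective fun y : Gamma0 (N * q) × Option (ZMod q) => incl y.1 * tI h y.2 := by
  have : Fact q.Prime := ⟨hq⟩
  have hNz := R1_Nz h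
  have key : ∀ m : ℤ, (q : ℤ) ∣ m ↔ (m : ZMod q) = 0 :=
    fun m => (ZMod.intCast_zmod_eq_zero_iff_dvd m q).symm
  refine R1_bij_of incl (tI h) ?_ (fun g => (q : ℤ) ∣ (g : SL(2, ℤ)) 1 0)
    (fun g => R1_range h incl hi g) ?_ ?_
  · intro γ₁ γ₂ h12
    apply Subtype.ext
    rw [← hi.coe, ← hi.coe, h12]
  · intro g
    by_cases hc : (q : ℤ) ∣ (g : SL(2, ℤ)) 1 0
    · exact ⟨none, by simpa [tI] using hc⟩
    · set c : ℤ := (g : SL(2, ℤ)) 1 0 with hcdef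
      set d : ℤ := (g : SL(2, ℤ)) 1 1 with hddef
      have hc0 : (c : ZMod q) ≠ 0 := fun h0 => hc ((key _).2 h0)
      refine ⟨some ((d : ZMod q) * (c : ZMod q)⁻¹), ?_⟩
      show (q : ℤ) ∣ ((g : SL(2, ℤ)) * ((tIg h _ : Gamma0 N) : SL(2, ℤ))⁻¹) 1 0
      rw [R1_entry10, key]
      show ((c * (tIm N q x z _) 1 1 - d * (tIm N q x z _) 1 0 : ℤ) : ZMod q) = 0
      simp only [tIm, Matrix.of_apply, Matrix.cons_val_zero, Matrix.cons_val_one,
        Matrix.cons_val', Matrix.cons_val_fin_one]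
      push_cast
      rw [ZMod.natCast_zmod_val, ZMod.natCast_self, hNz]
      field_simp
      ring
  · intro y y' hy
    rcases y with _ | j <;> rcases y' with _ | j'
    · rfl
    · exfalso
      change (q : ℤ) ∣ ((1 : SL(2, ℤ)) * ((tIg h _ : Gamma0 N) : SL(2, ℤ))⁻¹) 1 0 at hy
      rw [R1_entry10, key] at hy
      change (((1 : SL(2, ℤ)) 1 0 * (tIm N q x z _) 1 1 - (1 : SL(2, ℤ)) 1 1 * (tIm N q x z _) 1 0 : ℤ) :
        ZMod q) = 0 at hy
      simp only [tIm, Matrix.of_apply, Matrix.cons_val_zero, Matrix.cons_val_one,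
        Matrix.cons_val', Matrix.cons_val_fin_one, coe_one, Matrix.one_apply_eq] at hy
      push_cast at hy
      rw [hNz] at hy
      simp at hy
    · exfalso
      change (q : ℤ) ∣ (((tIg h _ : Gamma0 N) : SL(2, ℤ)) * (1 : SL(2, ℤ))⁻¹) 1 0 at hy
      rw [R1_entry10, key] at hy
      change (((tIm N q x z _) 1 0 * (1 : SL(2, ℤ)) 1 1 - (tIm N q x z _) 1 1 * (1 : SL(2, ℤ)) 1 0 : ℤ) :
        ZMod q) = 0 at hy
      simp only [tIm, Matrix.of_apply, Matrix.cons_val_zero, Matrix.cons_val_one,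
        Matrix.cons_val', Matrix.cons_val_fin_one, coe_one, Matrix.one_apply_eq] at hy
      push_cast at hy
      rw [hNz] at hy
      simp at hy
    · change (q : ℤ) ∣ (((tIg h _ : Gamma0 N) : SL(2, ℤ)) *
        ((tIg h _ : Gamma0 N) : SL(2, ℤ))⁻¹) 1 0 at hy
      rw [R1_entry10, key] at hy
      change (((tIm N q x z _) 1 0 * (tIm N q x z _) 1 1 - (tIm N q x z _) 1 1 * (tIm N q x z _) 1 0 : ℤ) :
        ZMod q) = 0 at hy
      simp only [tIm, Matrix.of_apply, Matrix.cons_val_zero, Matrix.cons_val_one,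
        Matrix.cons_val', Matrix.cons_val_fin_one] at hy
      push_cast at hy
      rw [ZMod.natCast_zmod_val, ZMod.natCast_zmod_val, ZMod.natCast_self, hNz] at hy
      congr 1
      linear_combination -hy

end Reps

end Fermat.Agent.S41Lib
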