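import Mathlib

/-!
# S41, chapter F, (UG): right multiplication permutes the non trivial cosets
-/

set_option autoImplicit false

namespace Fermat.Agent.S41Lib

theorem exists_data_of_bij {Γ' Γ J : Type*} [Group Γ'] [Group Γ] [Finite J] (ι : Γ' →* Γ)
    (t : Option J → Γ) (h1 : t none = 1)
    (hb : Function.Bijective fun y : Γ' × Option J => ι y.1 * t y.2) (γ : Γ') :
    ∃ (π : Equiv.Perm J) (η : J → Γ'), ∀ j, t (some j) * ι γ = ι (η j) * t (some (π j)) := by
  have hex : ∀ j : J, ∃ (κ : Γ') (k : J), t (some j) * ι γ = ι κ * t (some k) := by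
    intro j
    obtain ⟨⟨κ, k⟩, hk⟩ := hb.2 (t (some j) * ι γ)
    simp only at hk
    rcases k with _ | k
    · exfalso
      rw [h1, mul_one] at hk
      have h2 : (fun y : Γ' × Option J => ι y.1 * t y.2) (κ * γ⁻¹, none) =
          (fun y : Γ' × Option J => ι y.1 * t y.2) (1, some j) := by
        simp only [h1, mul_one, map_mul, map_inv, map_one, one_mul]
        rw [hk, mul_inv_cancel_right]
      have h3 := hb.1 h2
      simp at h3
    · exact ⟨κ, k, hk.symm⟩
  choose η π hπ using hex
  have hinj : Function.Injective π := by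
    intro j j' hjj
    have e1 := hπ j
    have e2 := hπ j'
    rw [hjj] at e1
    have h2 : (fun y : Γ' × Option J => ι y.1 * t y.2) (1, some j) =
        (fun y : Γ' × Option J => ι y.1 * t y.2) (η j * (η j')⁻¹, some j') := by
      simp only [map_mul, map_inv, map_one, one_mul]
      have e3 : t (some j) = ι (η j) * t (some (π j')) * (ι γ)⁻¹ := by
        rw [← e1, mul_inv_cancel_right]
      have e4 : t (some j') = ι (η j') * t (some (π j')) * (ι γ)⁻¹ := by
        rw [← e2, mul_inv_cancel_right]
      rw [e3, e4]
      group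
    have h3 := hb.1 h2
    simpa using (Prod.ext_iff.mp h3).2
  exact ⟨Equiv.ofBijective π (Finite.injective_iff_bijective.mp hinj), η, fun j => hπ j⟩

end Fermat.Agent.S41Lib
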