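import Fermat.Agent.S41.F.RepMat

/-!
# S41 (R4): the products `β_a β_b` lie in distinct cosets
-/

set_option autoImplicit false
set_option synthInstance.maxHeartbeats 400000

open CongruenceSubgroup Matrix.SpecialLinearGroup
open scoped MatrixGroups

namespace Fermat.Agent.S41Lib

section Reps

variable {N q : ℕ} {x z : ℤ}

theorem hecke_dist [NeZero q] (M : ℕ) (κ κ' : Gamma0 M) (a b a' b' : ZMod q)
    (h : mapGL ℝ (κ : SL(2, ℤ)) * (ModularForm.heckeMatrix q a.val * ModularForm.heckeMatrix q b.val)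
      = mapGL ℝ (κ' : SL(2, ℤ)) *
        (ModularForm.heckeMatrix q a'.val * ModularForm.heckeMatrix q b'.val)) : κ = κ' := by
  have hq0 : (q : ℝ) ≠ 0 := by exact_mod_cast NeZero.ne q
  have hqpos : 0 < q := Nat.pos_of_ne_zero (NeZero.ne q)
  have h' := congrArg (fun g : GL (Fin 2) ℝ => (g : Matrix (Fin 2) (Fin 2) ℝ)) h
  simp only [Units.val_mul, R3_mapGL_val, ModularForm.val_heckeMatrix (NeZero.ne q),
    Matrix.mul_fin_two] at h'
  set A : SL(2, ℤ) := (κ : SL(2, ℤ)) with hA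
  set A' : SL(2, ℤ) := (κ' : SL(2, ℤ)) with hA'
  have e00 := congrFun (congrFun h' 0) 0
  have e01 := congrFun (congrFun h' 0) 1
  have e10 := congrFun (congrFun h' 1) 0
  have e11 := congrFun (congrFun h' 1) 1
  simp [-ZMod.natCast_val] at e00 e01 e10 e11
  have f00 : A 0 0 = A' 0 0 := by exact_mod_cast e00
  have f10 : A 1 0 = A' 1 0 := by exact_mod_cast e10
  -- `s = b + a q`
  set s : ℤ := (b.val : ℤ) + a.val * q with hs
  set s' : ℤ := (b'.val : ℤ) + a'.val * q with hs'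
  have g01 : A 0 0 * s + A 0 1 * q ^ 2 = A' 0 0 * s' + A' 0 1 * q ^ 2 := by
    have : ((A 0 0 * s + A 0 1 * q ^ 2 : ℤ) : ℝ) = ((A' 0 0 * s' + A' 0 1 * q ^ 2 : ℤ) : ℝ) := by
      rw [hs, hs']
      push_cast
      linear_combination e01
    exact_mod_cast this
  have g11 : A 1 0 * s + A 1 1 * q ^ 2 = A' 1 0 * s' + A' 1 1 * q ^ 2 := by
    have : ((A 1 0 * s + A 1 1 * q ^ 2 : ℤ) : ℝ) = ((A' 1 0 * s' + A' 1 1 * q ^ 2 : ℤ) : ℝ) := by
      rw [hs, hs']
      push_cast
      linear_combination e11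
    exact_mod_cast this
  have dA : A 0 0 * A 1 1 - A 0 1 * A 1 0 = 1 := by
    have := A.det_coe
    rwa [Matrix.det_fin_two] at this
  have dA' : A' 0 0 * A' 1 1 - A' 0 1 * A' 1 0 = 1 := by
    have := A'.det_coe
    rwa [Matrix.det_fin_two] at this
  rw [← f00] at g01
  rw [← f10] at g11
  -- `q² ∣ s - s'`
  have hdvd : s - s' = (q : ℤ) ^ 2 * (A 1 1 * A' 0 1 - A 0 1 * A' 1 1) := by
    linear_combination (A 1 1) * g01 - (A 0 1) * g11 - (s - s') * dA
  have hb : ∀ u v : ZMod q, 0 ≤ (v.val : ℤ) + u.val * q ∧ (v.val : ℤ) + u.val * q < (q : ℤ) ^ 2 := by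
    intro u v
    have h1 : (v.val : ℤ) < q := by exact_mod_cast ZMod.val_lt v
    have h2 : (u.val : ℤ) + 1 ≤ q := by exact_mod_cast ZMod.val_lt u
    have h3 : (0 : ℤ) ≤ v.val := by positivity
    have h4 : (0 : ℤ) ≤ u.val := by positivity
    have h5 : (0 : ℤ) < q := by exact_mod_cast hqpos
    constructor
    · positivity
    · nlinarith
  have hss : s = s' := by
    have h1 := hb a b
    have h2 := hb a' b'
    have h3 : (q : ℤ) ^ 2 ∣ s - s' := ⟨_, hdvd⟩
    have h4 : s - s' = 0 := by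
      apply Int.eq_zero_of_abs_lt_dvd h3
      rw [abs_lt]
      constructor <;> omega
    omega
  have hq2 : (q : ℤ) ^ 2 ≠ 0 := by positivity
  have f01 : A 0 1 = A' 0 1 := by
    rw [hss] at g01
    exact mul_right_cancel₀ hq2 (add_left_cancel g01)
  have f11 : A 1 1 = A' 1 1 := by
    rw [hss] at g11
    exact mul_right_cancel₀ hq2 (add_left_cancel g11)
  apply Subtype.ext
  show A = A'
  ext i j
  fin_cases i <;> fin_cases j
  · exact f00
  · exact f01
  · exact f10
  · exact f11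

end Reps

end Fermat.Agent.S41Lib
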