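import Mathlib

/-!
# S41 (UA): `U² = 1` on the kernel of the two transfers, abstract form
-/

set_option autoImplicit false

namespace Fermat.Agent.S41Lib

theorem usq_abs {M Γ B J : Type*} [Monoid M] [Group Γ] [AddCommGroup B] [Fintype J]
    (e : Γ →* M) (β t : J → M) (W : M) (hW : ∀ j, W * t j = β j)
    (hdist : ∀ (κ κ' : Γ) (a b a' b' : J), e κ * (β a * β b) = e κ' * (β a' * β b') → κ = κ')
    (φ ψ χ : Additive Γ →+ B)
    (ex1 : ∀ γ : Γ, ∃ (π : Equiv.Perm J) (η : J → Γ), ∀ j, t j * e γ = e (η j) * t (π j))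
    (ex2 : ∀ γ : Γ, ∃ (π : Equiv.Perm J) (η : J → Γ),
      ∀ j, β j * W * e γ = e (η j) * (β (π j) * W))
    (exU : ∀ γ : Γ, ∃ (π : Equiv.Perm J) (η : J → Γ), ∀ j, β j * e γ = e (η j) * β (π j))
    (k1 : ∀ (γ : Γ) (π : Equiv.Perm J) (η : J → Γ), (∀ j, t j * e γ = e (η j) * t (π j)) →
      φ (Additive.ofMul γ) + ∑ j, φ (Additive.ofMul (η j)) = 0)
    (k2 : ∀ (γ : Γ) (π : Equiv.Perm J) (η : J → Γ),
      (∀ j, β j * W * e γ = e (η j) * (β (π j) * W)) →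
      φ (Additive.ofMul γ) + ∑ j, φ (Additive.ofMul (η j)) = 0)
    (hU1 : ∀ (γ : Γ) (π : Equiv.Perm J) (η : J → Γ), (∀ j, β j * e γ = e (η j) * β (π j)) →
      ψ (Additive.ofMul γ) = ∑ j, φ (Additive.ofMul (η j)))
    (hU2 : ∀ (γ : Γ) (π : Equiv.Perm J) (η : J → Γ), (∀ j, β j * e γ = e (η j) * β (π j)) →
      χ (Additive.ofMul γ) = ∑ j, ψ (Additive.ofMul (η j))) :
    χ = φ := by
  refine AddMonoidHom.ext fun γ' => ?_
  obtain ⟨γ, rfl⟩ := Additive.ofMul.surjective γ'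
  -- first step data
  obtain ⟨π₁, η₁, h₁⟩ := ex1 γ
  choose π₂ η₂ h₂ using fun j => ex2 (η₁ j)
  obtain ⟨ρ, g, hg⟩ := exU γ
  choose ρ₂ g₂ hg₂ using fun j => exU (g j)
  have e1 : ∀ j i, β i * β j * e γ = e (η₂ j i) * (β (π₂ j i) * β (π₁ j)) := by
    intro j i
    calc β i * β j * e γ = β i * W * (t j * e γ) := by rw [← hW j]; simp only [mul_assoc]
      _ = (β i * W * e (η₁ j)) * t (π₁ j) := by rw [h₁ j]; simp only [mul_assoc]
      _ = e (η₂ j i) * (β (π₂ j i) * (W * t (π₁ j))) := by rw [h₂ j i]; simp only [mul_assoc]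
      _ = e (η₂ j i) * (β (π₂ j i) * β (π₁ j)) := by rw [hW]
  have e2 : ∀ j i, β i * β j * e γ = e (g₂ j i) * (β (ρ₂ j i) * β (ρ j)) := by
    intro j i
    calc β i * β j * e γ = β i * (β j * e γ) := by simp only [mul_assoc]
      _ = (β i * e (g j)) * β (ρ j) := by rw [hg j]; simp only [mul_assoc]
      _ = e (g₂ j i) * (β (ρ₂ j i) * β (ρ j)) := by rw [hg₂ j i]; simp only [mul_assoc]
  have heq : ∀ j i, η₂ j i = g₂ j i := fun j i =>
    hdist _ _ _ _ _ _ ((e1 j i).symm.trans (e2 j i))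
  have hχ : χ (Additive.ofMul γ) = ∑ j, ∑ i, φ (Additive.ofMul (g₂ j i)) := by
    rw [hU2 γ ρ g hg]
    exact Finset.sum_congr rfl fun j _ => hU1 (g j) (ρ₂ j) (g₂ j) (hg₂ j)
  have hφ1 : φ (Additive.ofMul γ) = -∑ j, φ (Additive.ofMul (η₁ j)) :=
    eq_neg_of_add_eq_zero_left (k1 γ π₁ η₁ h₁)
  have hφ2 : ∀ j, φ (Additive.ofMul (η₁ j)) = -∑ i, φ (Additive.ofMul (η₂ j i)) := fun j =>
    eq_neg_of_add_eq_zero_left (k2 (η₁ j) (π₂ j) (η₂ j) (h₂ j))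
  rw [hχ, hφ1, Finset.sum_congr rfl fun j _ => hφ2 j, Finset.sum_neg_distrib, neg_neg]
  exact Finset.sum_congr rfl fun j _ => Finset.sum_congr rfl fun i _ => by rw [heq]

end Fermat.Agent.S41Lib
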