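import Fermat.Agent.S41.F.RepDefs

/-!
# S41 (R3): matrix identities in `GL₂(ℝ)`
-/

set_option autoImplicit false
set_option synthInstance.maxHeartbeats 400000

open CongruenceSubgroup Matrix.SpecialLinearGroup
open scoped MatrixGroups

namespace Fermat.Agent.S41Lib

section Reps

variable {N q : ℕ} {x z : ℤ}

theorem R3_mapGL_val (g : SL(2, ℤ)) :
    ((mapGL ℝ g : GL (Fin 2) ℝ) : Matrix (Fin 2) (Fin 2) ℝ)
      = !![((g 0 0 : ℤ) : ℝ), ((g 0 1 : ℤ) : ℝ); ((g 1 0 : ℤ) : ℝ), ((g 1 1 : ℤ) : ℝ)] := by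
  ext i j
  fin_cases i <;> fin_cases j <;> simp [mapGL_coe_matrix]

theorem WG_mul_tIg [NeZero q] (h : (q : ℤ) * x - N * z = 1) (j : ℕ) :
    WG h * mapGL ℝ ((tIg h (j : ℤ) : Gamma0 N) : SL(2, ℤ)) = ModularForm.heckeMatrix q j := by
  have hR : (q : ℝ) * x - N * z = 1 := by exact_mod_cast h
  apply Units.ext
  rw [Units.val_mul, R3_mapGL_val, ModularForm.val_heckeMatrix (NeZero.ne q)]
  show WW N q x z * !![(((tIm N q x z j) 0 0 : ℤ) : ℝ), (((tIm N q x z j) 0 1 : ℤ) : ℝ);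
    (((tIm N q x z j) 1 0 : ℤ) : ℝ), (((tIm N q x z j) 1 1 : ℤ) : ℝ)] = _
  simp only [WW, tIm, Matrix.mul_fin_two, Matrix.of_apply, Matrix.cons_val_zero,
    Matrix.cons_val_one, Matrix.cons_val', Matrix.cons_val_fin_one]
  push_cast
  congr 1
  ext i k
  fin_cases i <;> fin_cases k <;> simp
  · linear_combination hR
  · linear_combination (j : ℝ) * hR
  · ring
  · linear_combination (q : ℝ) * hR

/-- `D β_i W = (q t'_i) D`; the scalar `q` is written as `D β_0`-free: both sides multiplied out -/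
theorem diag_mul_hecke_mul_WG [NeZero q] (h : (q : ℤ) * x - N * z = 1) (i : ℕ) :
    ((ModularForm.heckeDiagMatrix q * (ModularForm.heckeMatrix q i * WG h) : GL (Fin 2) ℝ) :
        Matrix (Fin 2) (Fin 2) ℝ)
      = (q : ℝ) • ((mapGL ℝ ((tDg h (i : ℤ) : Gamma0 N) : SL(2, ℤ)) *
          ModularForm.heckeDiagMatrix q : GL (Fin 2) ℝ) : Matrix (Fin 2) (Fin 2) ℝ) := by
  rw [Units.val_mul, Units.val_mul, Units.val_mul, R3_mapGL_val,
    ModularForm.val_heckeMatrix (NeZero.ne q), ModularForm.val_heckeDiagMatrix (NeZero.ne q)]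
  show _ * (_ * WW N q x z) = (q : ℝ) • (!![(((tDm N q x z i) 0 0 : ℤ) : ℝ),
    (((tDm N q x z i) 0 1 : ℤ) : ℝ);
    (((tDm N q x z i) 1 0 : ℤ) : ℝ), (((tDm N q x z i) 1 1 : ℤ) : ℝ)] * _)
  simp only [WW, tDm, Matrix.mul_fin_two, Matrix.of_apply, Matrix.cons_val_zero,
    Matrix.cons_val_one, Matrix.cons_val', Matrix.cons_val_fin_one]
  push_cast
  ext a b
  fin_cases a <;> fin_cases b <;>
    simp only [Fin.zero_eta, Fin.mk_one, Fin.isValue, Matrix.of_apply, Matrix.cons_val_zero,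
      Matrix.cons_val_one, Matrix.cons_val', Matrix.cons_val_fin_one, Matrix.smul_apply,
      smul_eq_mul] <;> ring

theorem mapGL_adD_mul_diag [NeZero q] (adD : Gamma0 (N * q) →* Gamma0 N) (ha : IsAdD adD)
    (γ : Gamma0 (N * q)) :
    mapGL ℝ ((adD γ : Gamma0 N) : SL(2, ℤ)) * ModularForm.heckeDiagMatrix q
      = ModularForm.heckeDiagMatrix q * mapGL ℝ (γ : SL(2, ℤ)) := by
  apply Units.ext
  rw [Units.val_mul, Units.val_mul, R3_mapGL_val, R3_mapGL_val,
    ModularForm.val_heckeDiagMatrix (NeZero.ne q), ha.e00, ha.e01, ha.e11, ← ha.e10]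
  simp only [Matrix.mul_fin_two]
  push_cast
  ext a b
  fin_cases a <;> fin_cases b <;> simp <;> ring

end Reps

end Fermat.Agent.S41Lib
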