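import Fermat.Agent.S41.F.ThetaU
import Fermat.Agent.S41.F.FamAbs
import Fermat.Agent.S41.F.DataBij
import Fermat.Agent.S41.F.BijIncl
import Fermat.Agent.S41.F.BijAdD
import Fermat.Agent.S41.F.RepMat
import Fermat.Agent.S41.F.Dist

/-!
# S41 (UM): `U² = 1` on the kernel of the two transfers
-/

set_option autoImplicit false
set_option synthInstance.maxHeartbeats 400000

open CongruenceSubgroup Matrix.SpecialLinearGroup CuspForm ModularFormClass
open scoped MatrixGroups

namespace Fermat.Agent.S41Lib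

variable {N q : ℕ} {x z : ℤ}

/-- `Γ₀(M) → GL₂(ℝ)` -/
noncomputable def UM_e (M : ℕ) : Gamma0 M →* GL (Fin 2) ℝ :=
  (mapGL ℝ).comp (Gamma0 M).subtype

theorem UM_e_apply (M : ℕ) (γ : Gamma0 M) : UM_e M γ = mapGL ℝ (γ : SL(2, ℤ)) := rfl

theorem UM_e_injective (M : ℕ) : Function.Injective (UM_e M) := by
  intro a b hab
  exact Subtype.ext (mapGL_injective (R := ℤ) (S := ℝ) hab)

/-- translation of the first family of relations -/
theorem UM_iff1 (incl : Gamma0 (N * q) →* Gamma0 N) (hi : IsIncl incl) (a b : Gamma0 N)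
    (γ η : Gamma0 (N * q)) :
    UM_e N a * UM_e (N * q) γ = UM_e (N * q) η * UM_e N b ↔ a * incl γ = incl η * b := by
  have e1 : ∀ γ : Gamma0 (N * q), UM_e (N * q) γ = UM_e N (incl γ) := by
    intro γ
    rw [UM_e_apply, UM_e_apply, hi.coe]
  rw [e1, e1, ← map_mul, ← map_mul]
  exact (UM_e_injective N).eq_iff

/-- translation of the second family of relations -/
theorem UM_iff2 [NeZero q] (h : (q : ℤ) * x - N * z = 1) (adD : Gamma0 (N * q) →* Gamma0 N)
    (ha : IsAdD adD) (i i' : ℕ) (γ η : Gamma0 (N * q)) :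
    ModularForm.heckeMatrix q i * WG h * UM_e (N * q) γ
        = UM_e (N * q) η * (ModularForm.heckeMatrix q i' * WG h) ↔
      tDg h (i : ℤ) * adD γ = adD η * tDg h (i' : ℤ) := by
  have hq0 : (q : ℝ) ≠ 0 := by exact_mod_cast NeZero.ne q
  set D := ModularForm.heckeDiagMatrix q with hD
  have c1 : ∀ γ : Gamma0 (N * q), UM_e N (adD γ) * D = D * UM_e (N * q) γ := fun γ =>
    mapGL_adD_mul_diag adD ha γ
  have c2 : ∀ i : ℕ, ((D * (ModularForm.heckeMatrix q i * WG h) : GL (Fin 2) ℝ) :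
        Matrix (Fin 2) (Fin 2) ℝ)
      = (q : ℝ) • ((UM_e N (tDg h (i : ℤ)) * D : GL (Fin 2) ℝ) : Matrix (Fin 2) (Fin 2) ℝ) :=
    fun i => diag_mul_hecke_mul_WG h i
  -- left hand side multiplied by `D`
  have l1 : ((D * (ModularForm.heckeMatrix q i * WG h * UM_e (N * q) γ) : GL (Fin 2) ℝ) :
        Matrix (Fin 2) (Fin 2) ℝ)
      = (q : ℝ) • ((UM_e N (tDg h (i : ℤ) * adD γ) * D : GL (Fin 2) ℝ) :
          Matrix (Fin 2) (Fin 2) ℝ) := by
    have : D * (ModularForm.heckeMatrix q i * WG h * UM_e (N * q) γ)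
        = (D * (ModularForm.heckeMatrix q i * WG h)) * UM_e (N * q) γ := by
      simp only [mul_assoc]
    rw [this, Units.val_mul, c2, Matrix.smul_mul, ← Units.val_mul, map_mul, mul_assoc, mul_assoc,
      c1]
  have l2 : ((D * (UM_e (N * q) η * (ModularForm.heckeMatrix q i' * WG h)) : GL (Fin 2) ℝ) :
        Matrix (Fin 2) (Fin 2) ℝ)
      = (q : ℝ) • ((UM_e N (adD η * tDg h (i' : ℤ)) * D : GL (Fin 2) ℝ) :
          Matrix (Fin 2) (Fin 2) ℝ) := by
    have : D * (UM_e (N * q) η * (ModularForm.heckeMatrix q i' * WG h))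
        = UM_e N (adD η) * (D * (ModularForm.heckeMatrix q i' * WG h)) := by
      rw [← mul_assoc, ← c1, mul_assoc]
    rw [this, Units.val_mul, c2, Matrix.mul_smul, ← Units.val_mul, map_mul, mul_assoc]
  constructor
  · intro hyp
    have h1 := congrArg (fun X : GL (Fin 2) ℝ => ((D * X : GL (Fin 2) ℝ) :
      Matrix (Fin 2) (Fin 2) ℝ)) hyp
    rw [l1, l2] at h1
    have h2 := smul_right_injective (Matrix (Fin 2) (Fin 2) ℝ) hq0 h1
    have h3 := mul_right_cancel (Units.ext h2)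
    exact UM_e_injective N h3
  · intro hyp
    apply mul_left_cancel (a := D)
    apply Units.ext
    rw [l1, l2, hyp]

/-- (UM) -/
theorem usq_main [NeZero q] (hq : q.Prime) (hqN : ¬ q ∣ N)
    (incl adD : Gamma0 (N * q) →* Gamma0 N) (hi : IsIncl incl) (ha : IsAdD adD)
    {B : Type*} [AddCommGroup B] (φ ψ χ : Additive (Gamma0 (N * q)) →+ B)
    (h1 : KerB incl φ) (h2 : KerB adD φ) (hU1 : IsU (N * q) q φ ψ) (hU2 : IsU (N * q) q ψ χ) :
    χ = φ := by
  obtain ⟨x, z, h⟩ : ∃ x z : ℤ, (q : ℤ) * x - N * z = 1 := by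
    have hc : IsCoprime (q : ℤ) (N : ℤ) :=
      Nat.isCoprime_iff_coprime.2 ((Nat.Prime.coprime_iff_not_dvd hq).2 hqN)
    obtain ⟨a, b, hab⟩ := hc
    exact ⟨a, -b, by linear_combination hab⟩
  refine usq_abs (UM_e (N * q)) (fun j : ZMod q => ModularForm.heckeMatrix q j.val)
    (fun j : ZMod q => UM_e N (tIg h (j.val : ℤ))) (WG h) (fun j => WG_mul_tIg h j.val)
    (fun κ κ' a b a' b' hyp => hecke_dist (N * q) κ κ' a b a' b' hyp) φ ψ χ ?_ ?_ ?_ ?_ ?_ ?_ ?_
  · -- ex1
    intro γ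
    obtain ⟨π, η, hη⟩ := exists_data_of_bij incl (tI h) rfl (bij_incl hq h incl hi) γ
    exact ⟨π, η, fun j => (UM_iff1 incl hi _ _ γ (η j)).2 (hη j)⟩
  · -- ex2
    intro γ
    obtain ⟨π, η, hη⟩ := exists_data_of_bij adD (tD h) rfl (bij_adD hq h adD ha) γ
    exact ⟨π, η, fun j => (UM_iff2 h adD ha _ _ γ (η j)).2 (hη j)⟩
  · -- exU
    intro γ
    obtain ⟨γ', π, hπ⟩ := exists_transferU (N * q) (Dvd.intro_left N rfl) γ
    exact ⟨π, γ', hπ⟩
  · -- k1
    intro γ π η hyp
    have := h1 (Option (ZMod q)) (tI h) (bij_incl hq h incl hi) (incl γ) (Equiv.optionCongr π)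
      (fun o => o.elim γ η) (by
        intro o
        cases o with
        | none => show (1 : Gamma0 N) * incl γ = incl γ * 1; rw [one_mul, mul_one]
        | some j => exact (UM_iff1 incl hi _ _ γ (η j)).1 (hyp j))
    rw [Fintype.sum_option] at this
    exact this
  · -- k2
    intro γ π η hyp
    have := h2 (Option (ZMod q)) (tD h) (bij_adD hq h adD ha) (adD γ) (Equiv.optionCongr π)
      (fun o => o.elim γ η) (by
        intro o
        cases o with
        | none => show (1 : Gamma0 N) * adD γ = adD γ * 1; rw [one_mul, mul_one]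
        | some j => exact (UM_iff2 h adD ha _ _ γ (η j)).1 (hyp j))
    rw [Fintype.sum_option] at this
    exact this
  · intro γ π η hyp
    exact hU1 γ η ⟨π, hyp⟩
  · intro γ π η hyp
    exact hU2 γ η ⟨π, hyp⟩

end Fermat.Agent.S41Lib
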