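import Fermat.Agent.S41.F.UDefs

/-!
# S41 (U2): explicit representatives.  `q x - N z = 1`, `W = [[q x, 1], [N q z, q]]`,
`t_j = W⁻¹ β_j = [[1, j - 1], [- N z, q x - N z j]]`,
`t'_i = q⁻¹ D β_i W D⁻¹ = [[x + i N z, 1 + i q], [N z, q]]`, `D = diag(q, 1)`.
-/

set_option autoImplicit false

open CongruenceSubgroup Matrix.SpecialLinearGroup
open scoped MatrixGroups

namespace Fermat.Agent.S41Lib

section Reps

variable (N q : ℕ) (x z : ℤ)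

/-- `t_j` -/
def tIm (j : ℤ) : Matrix (Fin 2) (Fin 2) ℤ := !![1, j - 1; -(N * z), q * x - N * z * j]

/-- `t'_i` -/
def tDm (i : ℤ) : Matrix (Fin 2) (Fin 2) ℤ := !![x + i * (N * z), 1 + i * q; N * z, q]

variable {N q x z}

theorem det_tIm (h : (q : ℤ) * x - N * z = 1) (j : ℤ) : (tIm N q x z j).det = 1 := by
  rw [tIm, Matrix.det_fin_two_of]
  linear_combination h

theorem det_tDm (h : (q : ℤ) * x - N * z = 1) (i : ℤ) : (tDm N q x z i).det = 1 := by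
  rw [tDm, Matrix.det_fin_two_of]
  linear_combination h

/-- `t_j` in `Γ₀(N)` -/
def tIg (h : (q : ℤ) * x - N * z = 1) (j : ℤ) : Gamma0 N :=
  ⟨⟨tIm N q x z j, det_tIm h j⟩, by
    rw [Gamma0_mem]
    show (((tIm N q x z j) 1 0 : ℤ) : ZMod N) = 0
    simp [tIm]⟩

/-- `t'_i` in `Γ₀(N)` -/
def tDg (h : (q : ℤ) * x - N * z = 1) (i : ℤ) : Gamma0 N :=
  ⟨⟨tDm N q x z i, det_tDm h i⟩, by
    rw [Gamma0_mem]
    show (((tDm N q x z i) 1 0 : ℤ) : ZMod N) = 0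
    simp [tDm]⟩

/-- representatives of `Γ₀(Nq) \ Γ₀(N)` -/
def tI (h : (q : ℤ) * x - N * z = 1) : Option (ZMod q) → Gamma0 N
  | none => 1
  | some j => tIg h (j.val : ℤ)

/-- representatives of `adD Γ₀(Nq) \ Γ₀(N)` -/
def tD (h : (q : ℤ) * x - N * z = 1) : Option (ZMod q) → Gamma0 N
  | none => 1
  | some j => tDg h (j.val : ℤ)

/-- the Atkin-Lehner matrix -/
noncomputable def WW (N q : ℕ) (x z : ℤ) : Matrix (Fin 2) (Fin 2) ℝ :=
  !![(q : ℝ) * x, 1; (N : ℝ) * q * z, q]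

theorem det_WW (h : (q : ℤ) * x - N * z = 1) : (WW N q x z).det = q := by
  have hR : (q : ℝ) * x - N * z = 1 := by exact_mod_cast h
  rw [WW, Matrix.det_fin_two_of]
  linear_combination (q : ℝ) * hR

/-- the Atkin-Lehner matrix in `GL₂(ℝ)` -/
noncomputable def WG [NeZero q] (h : (q : ℤ) * x - N * z = 1) : GL (Fin 2) ℝ :=
  Matrix.GeneralLinearGroup.mkOfDetNeZero (WW N q x z) (by
    rw [det_WW h]
    exact_mod_cast NeZero.ne q)

/-- specification of the two degeneracy homomorphisms `Γ₀(Nq) → Γ₀(N)` -/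
structure IsIncl (incl : Gamma0 (N * q) →* Gamma0 N) : Prop where
  coe : ∀ γ, ((incl γ : Gamma0 N) : SL(2, ℤ)) = (γ : SL(2, ℤ))

/-- `adD [[a,b],[c,d]] = [[a, q b],[c / q, d]]` -/
structure IsAdD (adD : Gamma0 (N * q) →* Gamma0 N) : Prop where
  e00 : ∀ γ, ((adD γ : Gamma0 N) : SL(2, ℤ)) 0 0 = (γ : SL(2, ℤ)) 0 0
  e01 : ∀ γ, ((adD γ : Gamma0 N) : SL(2, ℤ)) 0 1 = q * (γ : SL(2, ℤ)) 0 1
  e10 : ∀ γ, q * ((adD γ : Gamma0 N) : SL(2, ℤ)) 1 0 = (γ : SL(2, ℤ)) 1 0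
  e11 : ∀ γ, ((adD γ : Gamma0 N) : SL(2, ℤ)) 1 1 = (γ : SL(2, ℤ)) 1 1

end Reps

end Fermat.Agent.S41Lib
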