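import Fermat.Agent.S41.F1.Adapt
import Fermat.Agent.S41.F.TopDefs
import Fermat.Agent.S41.F.ThetaU
import Fermat.Agent.S41.F.Core
import Fermat.Agent.S41.F.End
import Fermat.Agent.S41.F.USq
import Fermat.Agent.S41.F.Start
import Fermat.Agent.S41.F.TrUnique
import Fermat.Agent.S41.F.IoB
import Fermat.Agent.S41.F.IoT
import Fermat.Agent.S41.PD.Plus
import Fermat.Agent.S41.IhPlus
import Fermat.Agent.S41.IhEnd
import Fermat.Agent.ES.TrunkCore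
import Fermat.Agent.ES.Theta

/-!
# S41, TOP: assembly
-/

set_option autoImplicit false
set_option synthInstance.maxHeartbeats 400000

open CongruenceSubgroup Matrix.SpecialLinearGroup CuspForm ModularFormClass ModularCurve.Period
open scoped MatrixGroups

namespace Fermat.Agent.S41Lib

open Fermat.Agent.ESLib

/-- abstract: `c' • v = p • z`, `p ∤ c'` gives `v ∈ p Λ` -/
theorem TM_div {Λ : Type*} [AddCommGroup Λ] {p : ℕ} (hp : p.Prime) {c' : ℤ}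
    (hc : ¬ (p : ℤ) ∣ c') {v z : Λ} (h : c' • v = p • z) : ∃ z' : Λ, v = p • z' := by
  have hcop : IsCoprime c' (p : ℤ) :=
    ((Nat.prime_iff_prime_int.mp hp).coprime_iff_not_dvd.mpr hc).symm
  obtain ⟨u, w, huw⟩ := hcop
  refine ⟨u • z + w • v, ?_⟩
  calc v = (u * c' + w * p) • v := by rw [huw, one_smul]
    _ = u • (c' • v) + w • ((p : ℤ) • v) := by rw [add_smul, mul_smul, mul_smul]
    _ = p • (u • z + w • v) := by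
        rw [h, smul_add, natCast_zsmul, smul_comm u p z, smul_comm w p v]

section Lvl

variable {N q p : ℕ} [NeZero N] [NeZero q] [Fact p.Prime]

/-- the operator `σ = (1 + ι_*) × (1 + ι_*)` -/
def sig (N : ℕ) : EP N ℤ × EP N ℤ →+ EP N ℤ × EP N ℤ :=
  (AddMonoidHom.id _ + ioEP N ℤ).prodMap (AddMonoidHom.id _ + ioEP N ℤ)

theorem sig_apply (x y : EP N ℤ) : sig N (x, y) = (x + ioEP N ℤ x, y + ioEP N ℤ y) := rfl

/-- the element `w` -/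
theorem exists_w (hp2 : p ≠ 2) (hq : q.Prime) (hqN : ¬ q ∣ N)
    (h1 : IsDeg (incl N q)) (h2 : IsDeg (adD N q))
    (Θ₀ : TT0 N →+* Module.End ℤ (EP N ℤ)) (hTr : P.IsThetaTr Θ₀) (ε : ℤ)
    (hε : ε = 1 ∨ ε = -1) (x : EP N ℤ) (hio : ioEP N ℤ x = x)
    (hTq : ∃ z : EP N ℤ, Θ₀ (heckeAlgebra.T hq hqN hqN) x = (ε * ((q : ℤ) + 1)) • x + p • z) :
    ∃ (w : EP (N * q) ℤ) (c' : ℤ) (y : EP (N * q) ℤ), bOf ℤ h1 w = 0 ∧ bOf ℤ h2 w = 0 ∧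
      ¬ (p : ℤ) ∣ c' ∧ w = c' • aMap ℤ h1 h2 (x, (-ε) • x) + p • y := by
  have hp : p.Prime := Fact.out
  obtain ⟨r, ⟨bas⟩⟩ := H3.exists_basis N
  haveI : Module.Finite ℤ (EP N ℤ) := Module.Finite.of_basis bas
  set Tq : Module.End ℤ (EP N ℤ) := Θ₀ (heckeAlgebra.T hq hqN hqN) with hTqdef
  have hTrq : ∀ v : EP N ℤ, IsTr N q (v : Additive (Gamma0 N) →+ ℤ)
      ((Tq v : EP N ℤ) : Additive (Gamma0 N) →+ ℤ) := fun v => hTr q hq hqN v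
  have hba : ∀ u v : EP N ℤ, bMap ℤ h1 h2 (aMap ℤ h1 h2 (u, v))
      = ((q + 1) • u + Tq v, Tq u + (q + 1) • v) := fun u v =>
    bMap_aMap hq hqN h1 h2 u v (Tq u) (Tq v) (hTrq u) (hTrq v)
  have hioT : ∀ v : EP N ℤ, ioEP N ℤ (Tq v) = Tq (ioEP N ℤ v) := fun v =>
    Subtype.ext (isTr_unique hq hqN (io_isTr v (Tq v) (hTrq v)) (hTrq (ioEP N ℤ v)))
  obtain ⟨z, hz⟩ := hTq
  obtain ⟨w, c', y, hbw, hc', hw⟩ := core_abs (aMap ℤ h1 h2) (bMap ℤ h1 h2) (sig N) p hp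
    (by
      rintro ⟨u, v⟩
      rw [hba, sig_apply, sig_apply, hba]
      simp only [map_add, map_nsmul, hioT, smul_add]
      refine Prod.ext ?_ ?_ <;> simp only <;> abel)
    (by
      intro y
      refine ⟨y + ioEP (N * q) ℤ y, ?_⟩
      rw [bMap_apply, bMap_apply, sig_apply, map_add, map_add, io_bOf_incl, io_bOf_adD])
    (by
      rintro ⟨u, v⟩
      obtain ⟨y, z₁, z₂, e₁, e₂⟩ := pd_plus (p := p) hp2 hq hqN h1 h2 u v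
      refine ⟨y, (z₁, z₂), ?_⟩
      rw [sig_apply, bMap_apply, e₁, e₂]
      rfl)
    (x, (-ε) • x) 2
    (by
      intro h
      have h2' : p ∣ 2 := by exact_mod_cast h
      exact hp2 ((Nat.prime_dvd_prime_iff_eq hp Nat.prime_two).mp h2'))
    ⟨0, by
      rw [sig_apply, map_zsmul, hio, smul_zero, add_zero]
      refine Prod.ext ?_ ?_
      · show x + x = (2 : ℤ) • x
        rw [two_zsmul]
      · show (-ε) • x + (-ε) • x = (2 : ℤ) • ((-ε) • x)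
        rw [two_zsmul]⟩
    ⟨((-ε) • z, z), by
      rw [hba, map_zsmul, hz]
      refine Prod.ext ?_ ?_
      · show (q + 1) • x + (-ε) • ((ε * ((q : ℤ) + 1)) • x + p • z) = p • ((-ε) • z)
        rcases hε with rfl | rfl
        · rw [← natCast_zsmul x (q + 1), ← natCast_zsmul z p, ← natCast_zsmul _ p]
          push_cast
          module
        · rw [← natCast_zsmul x (q + 1), ← natCast_zsmul z p, ← natCast_zsmul _ p]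
          push_cast
          module
      · show (ε * ((q : ℤ) + 1)) • x + p • z + (q + 1) • ((-ε) • x) = p • z
        rw [← natCast_zsmul _ (q + 1), ← natCast_zsmul z p]
        push_cast
        module⟩
  rw [bMap_apply] at hbw
  exact ⟨w, c', y, congrArg Prod.fst hbw, congrArg Prod.snd hbw, hc', hw⟩

/-- `w ∉ p L'` -/
theorem w_not_dvd (W : WeierstrassCurve ℤ) (hΔ : W.Δ ≠ 0) (hp2 : p ≠ 2)
    (hirr : W.ModRepIsIrreducible p) (hq : q.Prime) (hqN : ¬ q ∣ N)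
    (h1 : IsDeg (incl N q)) (h2 : IsDeg (adD N q)) (D : ℕ) (hD : D ≠ 0)
    (Θ₀ : TT0 N →+* Module.End ℤ (EP N ℤ)) (hTr : P.IsThetaTr Θ₀) (e : ℤ) (x : EP N ℤ)
    (hx : ∀ z : EP N ℤ, x ≠ p • z)
    (heig : ∀ (ℓ : ℕ) (hℓ : ℓ.Prime) (hℓN : ¬ ℓ ∣ N), ¬ ℓ ∣ D →
      ∃ z : EP N ℤ, Θ₀ (heckeAlgebra.T hℓ hℓN hℓN) x = W.apOfModel ℓ • x + p • z)
    (w : EP (N * q) ℤ) (c' : ℤ) (y : EP (N * q) ℤ) (hc' : ¬ (p : ℤ) ∣ c')
    (hw : w = c' • aMap ℤ h1 h2 (x, e • x) + p • y) (z : EP (N * q) ℤ) : w ≠ p • z := by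
  have hp : p.Prime := Fact.out
  intro hwz
  have h3 : c' • aMap ℤ h1 h2 (x, e • x) = p • (z - y) := by
    rw [smul_sub, ← hwz, hw, add_sub_cancel_right]
  obtain ⟨z', hz'⟩ := TM_div hp hc' h3
  have hker : InKer N q p (x : Additive (Gamma0 N) →+ ℤ)
      ((e • x : EP N ℤ) : Additive (Gamma0 N) →+ ℤ) := by
    apply inKer_of_aMap h1 h2
    intro γ
    rw [hz']
    exact ⟨(z' : Additive (Gamma0 (N * q)) →+ ℤ) (Additive.ofMul γ), by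
      show (p • (z' : Additive (Gamma0 (N * q)) →+ ℤ)) (Additive.ofMul γ) = _
      rw [AddMonoidHom.nsmul_apply, nsmul_eq_mul]⟩
  have hdiv := ihara_lambda W hΔ hp2 hirr hq hqN D hD Θ₀ hTr x (e • x) hker (by
    intro ℓ hℓ hℓN hℓD γ
    obtain ⟨z₁, hz₁⟩ := heig ℓ hℓ hℓN hℓD
    rw [hz₁]
    refine ⟨(z₁ : Additive (Gamma0 N) →+ ℤ) γ, ?_⟩
    show (W.apOfModel ℓ • (x : Additive (Gamma0 N) →+ ℤ) + p • (z₁ : Additive (Gamma0 N) →+ ℤ)) γ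
      - _ = _
    rw [AddMonoidHom.add_apply, AddMonoidHom.nsmul_apply, AddMonoidHom.zsmul_apply, nsmul_eq_mul,
      smul_eq_mul]
    ring)
  obtain ⟨ψ, hψ⟩ := P.exists_div x hdiv
  exact hx ψ hψ

/-- `w` is an eigenvector modulo `p` -/
theorem w_eig {ℓ : ℕ} (hℓ : ℓ.Prime) (hℓN : ¬ ℓ ∣ N) (hℓq : ¬ ℓ ∣ q)
    (h1 : IsDeg (incl N q)) (h2 : IsDeg (adD N q))
    (Θ₀ : TT0 N →+* Module.End ℤ (EP N ℤ)) (hTr : P.IsThetaTr Θ₀) (e a : ℤ) (x : EP N ℤ)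
    (heig : ∃ z : EP N ℤ, Θ₀ (heckeAlgebra.T hℓ hℓN hℓN) x = a • x + p • z)
    (T' : Module.End ℤ (EP (N * q) ℤ))
    (hT' : ∀ φ : EP (N * q) ℤ, haveI : NeZero ℓ := ⟨hℓ.ne_zero⟩
      IsTr (N * q) ℓ (φ : Additive (Gamma0 (N * q)) →+ ℤ)
        ((T' φ : EP (N * q) ℤ) : Additive (Gamma0 (N * q)) →+ ℤ))
    (w : EP (N * q) ℤ) (c' : ℤ) (y : EP (N * q) ℤ)
    (hw : w = c' • aMap ℤ h1 h2 (x, e • x) + p • y) :
    ∃ z : EP (N * q) ℤ, T' w = a • w + p • z := by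
  haveI : NeZero ℓ := ⟨hℓ.ne_zero⟩
  haveI : NeZero (N * q) := ⟨Nat.mul_ne_zero (NeZero.ne N) (NeZero.ne q)⟩
  have hℓNq : ¬ ℓ ∣ N * q := fun h => (hℓ.dvd_mul.mp h).elim hℓN hℓq
  obtain ⟨z₁, hz₁⟩ := heig
  set T : Module.End ℤ (EP N ℤ) := Θ₀ (heckeAlgebra.T hℓ hℓN hℓN) with hT
  have hc := aMap_comm hℓ hℓq h1 h2 x (e • x) (T x) (T (e • x)) (hTr ℓ hℓ hℓN x)
    (hTr ℓ hℓ hℓN (e • x))
  have h3 : T' (aMap ℤ h1 h2 (x, e • x)) = aMap ℤ h1 h2 (T x, T (e • x)) :=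
    Subtype.ext (isTr_unique hℓ hℓNq (hT' _) hc)
  have h4 : aMap ℤ h1 h2 (T x, T (e • x))
      = a • aMap ℤ h1 h2 (x, e • x) + p • aMap ℤ h1 h2 (z₁, e • z₁) := by
    rw [map_zsmul, hz₁, ← map_zsmul, ← map_nsmul, ← map_add]
    congr 1
    refine Prod.ext rfl ?_
    show e • (a • x + p • z₁) = a • (e • x) + p • (e • z₁)
    rw [smul_add, smul_comm e a x, smul_comm e p z₁]
  refine ⟨c' • aMap ℤ h1 h2 (z₁, e • z₁) + T' y - a • y, ?_⟩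
  rw [hw, map_add, map_zsmul, map_nsmul, h3, h4]
  simp only [← natCast_zsmul _ p]
  module

end Lvl

/-- (TM) -/
theorem top_main (W : WeierstrassCurve ℤ) (hΔ : W.Δ ≠ 0) {p N q : ℕ} [Fact p.Prime] [NeZero N]
    (hp2 : p ≠ 2) (hq : q.Prime) (hqN : ¬ q ∣ N) (hqp : q ≠ p)
    (hirr : W.ModRepIsIrreducible p)
    (f : CuspForm (Gamma0 N) 2) (𝔪 : Ideal (integralClosure ℤ ℂ))
    (hf : f.IsNormalizedEigenform) (hmax : 𝔪.IsMaximal) (hpm : (p : integralClosure ℤ ℂ) ∈ 𝔪)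
    (hcong : ∀ ℓ : ℕ, ℓ.Prime → W.IsGoodPrimeFor ℓ → ¬ ℓ ∣ N → ℓ ≠ p →
      ∃ a : integralClosure ℤ ℂ, (a : ℂ) = qCoeff f ℓ ∧
        a - ((W.apOfModel ℓ : ℤ) : integralClosure ℤ ℂ) ∈ 𝔪)
    (hLR : ∃ a : integralClosure ℤ ℂ, (a : ℂ) = qCoeff f q ∧
      a ^ 2 - ((q : integralClosure ℤ ℂ) + 1) ^ 2 ∈ 𝔪) :
    ∃ (g : CuspForm (Gamma0 (N * q)) 2) (𝔪' : Ideal (integralClosure ℤ ℂ)),
      g.IsNormalizedEigenform ∧ 𝔪'.IsMaximal ∧ (p : integralClosure ℤ ℂ) ∈ 𝔪' ∧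
      (∀ ℓ : ℕ, ℓ.Prime → W.IsGoodPrimeFor ℓ → ¬ ℓ ∣ N * q → ℓ ≠ p →
        ∃ a : integralClosure ℤ ℂ, (a : ℂ) = qCoeff g ℓ ∧
          a - ((W.apOfModel ℓ : ℤ) : integralClosure ℤ ℂ) ∈ 𝔪') ∧
      g.IsNewAt q := by
  classical
  haveI : NeZero q := ⟨hq.ne_zero⟩
  haveI : NeZero (N * q) := ⟨Nat.mul_ne_zero (NeZero.ne N) hq.ne_zero⟩
  have hp : p.Prime := Fact.out
  set S : Set ℕ := {ℓ | ℓ ≠ q ∧ (¬ W.IsGoodPrimeFor ℓ ∨ ℓ = p ∨ ℓ ∣ N)} with hSdef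
  have hqS : q ∉ S := fun h => h.1 rfl
  have hnotS : ∀ ℓ : ℕ, ℓ ∉ S → ℓ ≠ q → W.IsGoodPrimeFor ℓ ∧ ℓ ≠ p ∧ ¬ ℓ ∣ N := by
    intro ℓ hℓS hℓq
    have h : ¬ (¬ W.IsGoodPrimeFor ℓ ∨ ℓ = p ∨ ℓ ∣ N) := fun h => hℓS ⟨hℓq, h⟩
    push Not at h
    exact h
  obtain ⟨Θ, hΘinj, hΘT, -⟩ := exists_thetaU N S
  obtain ⟨Θ', -, hΘ'T, hΘ'U⟩ := exists_thetaU (N * q) S
  obtain ⟨r, bas, Θ₀, -, hTr⟩ := exists_theta N
  have hTr' : P.IsThetaTr Θ₀ := hTr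
  obtain ⟨ε, x₀, hε, hx₀, hx₀T, hx₀q⟩ := start N S hq hqN hqS
    (fun r _ hrN => ⟨fun h => hqN (h ▸ hrN), Or.inr (Or.inr hrN)⟩) Θ hΘinj f hf 𝔪 hmax hpm
    W.apOfModel
    (fun ℓ hℓ hℓN hℓS hℓq => hcong ℓ hℓ (hnotS ℓ hℓS hℓq).1 hℓN (hnotS ℓ hℓS hℓq).2.1) hLR
  -- comparison of `Θ` and `Θ₀`
  have hcmp : ∀ (ℓ : ℕ) (hℓ : ℓ.Prime) (hℓN : ¬ ℓ ∣ N) (hℓS : ℓ ∉ S) (v : EP N ℤ),
      Θ (heckeAlgebra.T hℓ hℓN hℓS) v = Θ₀ (heckeAlgebra.T hℓ hℓN hℓN) v := by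
    intro ℓ hℓ hℓN hℓS v
    haveI : NeZero ℓ := ⟨hℓ.ne_zero⟩
    exact Subtype.ext (isTr_unique hℓ hℓN (hΘT ℓ hℓ hℓN hℓS v) (hTr ℓ hℓ hℓN v))
  set D : ℕ := W.Δ.natAbs * p * q with hDdef
  have hD : D ≠ 0 :=
    Nat.mul_ne_zero (Nat.mul_ne_zero (Int.natAbs_ne_zero.mpr hΔ) hp.ne_zero) hq.ne_zero
  have hDS : ∀ ℓ : ℕ, ℓ.Prime → ¬ ℓ ∣ N → ¬ ℓ ∣ D → ℓ ∉ S ∧ ℓ ≠ q := by
    intro ℓ hℓ hℓN hℓD
    have hq' : ℓ ≠ q := fun h => hℓD (h ▸ Dvd.intro_left _ rfl)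
    refine ⟨?_, hq'⟩
    rintro ⟨-, h | h | h⟩
    · apply h
      intro hdvd
      apply hℓD
      have : ℓ ∣ W.Δ.natAbs := Int.natCast_dvd.mp hdvd
      exact (this.mul_right p).mul_right q
    · exact hℓD (h ▸ ((Dvd.intro_left _ rfl : p ∣ W.Δ.natAbs * p).mul_right q))
    · exact hℓN h
  obtain ⟨x, hx, hio, hxT, hxq⟩ := exists_plus W hΔ hp2 hirr hq hqN D hD Θ₀ hTr'
    (ε * ((q : ℤ) + 1)) x₀ hx₀
    (fun ℓ hℓ hℓN hℓD => by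
      obtain ⟨z, hz⟩ := hx₀T ℓ hℓ hℓN (hDS ℓ hℓ hℓN hℓD).1 (hDS ℓ hℓ hℓN hℓD).2
      exact ⟨z, by rw [← hcmp ℓ hℓ hℓN (hDS ℓ hℓ hℓN hℓD).1, hz]⟩)
    (by
      obtain ⟨z, hz⟩ := hx₀q
      exact ⟨z, by rw [← hcmp q hq hqN hqS, hz]⟩)
  have h1 : IsDeg (incl N q) := isDeg_incl hq hqN
  have h2 : IsDeg (adD N q) := isDeg_adD hq hqN
  obtain ⟨w, c', y, hb1, hb2, hc', hw⟩ := exists_w (p := p) hp2 hq hqN h1 h2 Θ₀ hTr' ε hε x hio hxq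
  have hqNq : q ∣ N * q := Dvd.intro_left N rfl
  obtain ⟨g, 𝔪', hg, h𝔪', hp𝔪', hgc, hgq⟩ := endgame (N * q) S hq hqNq hqS
    (fun r hr hrNq hrq => ⟨hrq, Or.inr (Or.inr ((hr.dvd_mul.mp hrNq).resolve_right
      (fun h => hrq ((Nat.prime_dvd_prime_iff_eq hr hq).mp h))))⟩)
    Θ' W.apOfModel w
    (w_not_dvd W hΔ hp2 hirr hq hqN h1 h2 D hD Θ₀ hTr' (-ε) x hx hxT w c' y hc' hw)
    (by
      intro ℓ hℓ hℓNq hℓS
      have hℓN : ¬ ℓ ∣ N := fun h => hℓNq (h.mul_right q)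
      have hℓq : ¬ ℓ ∣ q := fun h => hℓNq (h.mul_left N)
      have hℓq' : ℓ ≠ q := fun h => hℓq (h ▸ dvd_rfl)
      have hℓD : ¬ ℓ ∣ D := by
        intro h
        rcases hℓ.dvd_mul.mp h with h | h
        · rcases hℓ.dvd_mul.mp h with h | h
          · exact (hnotS ℓ hℓS hℓq').1 (Int.natCast_dvd.mpr h)
          · exact (hnotS ℓ hℓS hℓq').2.1 ((Nat.prime_dvd_prime_iff_eq hℓ hp).mp h)
        · exact hℓq h
      exact w_eig hℓ hℓN hℓq h1 h2 Θ₀ hTr' (-ε) (W.apOfModel ℓ) x (hxT ℓ hℓ hℓN hℓD)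
        (Θ' (heckeAlgebra.T hℓ hℓNq hℓS)) (fun φ => hΘ'T ℓ hℓ hℓNq hℓS φ) w c' y hw)
    (Subtype.ext (usq_main hq hqN (incl N q) (adD N q) (isIncl_incl N q) (isAdD_adD N q)
      (w : Additive (Gamma0 (N * q)) →+ ℤ) _ _
      (kerB_of_bOf_eq_zero h1 w hb1) (kerB_of_bOf_eq_zero h2 w hb2)
      (hΘ'U q hq hqNq hqS w) (hΘ'U q hq hqNq hqS _)))
  refine ⟨g, 𝔪', hg, h𝔪', hp𝔪', ?_, hgq⟩
  intro ℓ hℓ hgood hℓNq hℓp
  refine hgc ℓ hℓ hℓNq ?_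
  rintro ⟨-, h | h | h⟩
  · exact h hgood
  · exact hℓp h
  · exact hℓNq (h.mul_right q)

end Fermat.Agent.S41Lib
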