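import Mathlib

/-!
# S41, chapter F, (CB): an eigenvector modulo `p` of a generating set gives a character
-/

set_option autoImplicit false

namespace Fermat.Agent.S41Lib

/-- `Θ t w = n w` modulo `p` -/
def CB_R {T Λ : Type*} [CommRing T] [AddCommGroup Λ] (Θ : T →+* Module.End ℤ Λ) (p : ℕ) (w : Λ)
    (t : T) (n : ℤ) : Prop := ∃ z : Λ, Θ t w = n • w + p • z

section
variable {T Λ : Type*} [CommRing T] [AddCommGroup Λ] {Θ : T →+* Module.End ℤ Λ} {p : ℕ} {w : Λ}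

theorem CB_R_zero : CB_R Θ p w 0 0 := ⟨0, by simp⟩

theorem CB_R_one : CB_R Θ p w 1 1 := ⟨0, by simp⟩

theorem CB_R_add {s t : T} {m n : ℤ} (hs : CB_R Θ p w s m) (ht : CB_R Θ p w t n) :
    CB_R Θ p w (s + t) (m + n) := by
  obtain ⟨z, hz⟩ := hs
  obtain ⟨z', hz'⟩ := ht
  refine ⟨z + z', ?_⟩
  rw [map_add, LinearMap.add_apply, hz, hz', add_smul, smul_add]
  abel

theorem CB_R_neg {s : T} {m : ℤ} (hs : CB_R Θ p w s m) : CB_R Θ p w (-s) (-m) := by
  obtain ⟨z, hz⟩ := hs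
  refine ⟨-z, ?_⟩
  rw [map_neg, LinearMap.neg_apply, hz, neg_smul, smul_neg]
  abel

theorem CB_R_mul {s t : T} {m n : ℤ} (hs : CB_R Θ p w s m) (ht : CB_R Θ p w t n) :
    CB_R Θ p w (s * t) (m * n) := by
  obtain ⟨z, hz⟩ := hs
  obtain ⟨z', hz'⟩ := ht
  refine ⟨n • z + Θ s z', ?_⟩
  rw [map_mul, Module.End.mul_apply, hz', map_add, map_smul, map_nsmul, hz, smul_add, smul_add,
    smul_smul, mul_comm n m, smul_comm n p z, add_assoc]

theorem CB_R_unique [Fact p.Prime] (hw : ∀ z : Λ, w ≠ p • z) {t : T} {m n : ℤ}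
    (h : CB_R Θ p w t m) (h' : CB_R Θ p w t n) : (m : ZMod p) = (n : ZMod p) := by
  obtain ⟨z, hz⟩ := h
  obtain ⟨z', hz'⟩ := h'
  rw [ZMod.intCast_eq_intCast_iff_dvd_sub]
  by_contra hnd
  have hpp : Prime (p : ℤ) := Nat.prime_iff_prime_int.mp (Fact.out : p.Prime)
  have hcop : IsCoprime (p : ℤ) (n - m) := (Prime.coprime_iff_not_dvd hpp).mpr hnd
  obtain ⟨a, b, hab⟩ := hcop
  have h1 : (n - m) • w = p • (z - z') := by
    rw [sub_smul, smul_sub]
    have h2 : m • w + p • z = n • w + p • z' := by rw [← hz, hz']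
    have h3 : n • w - m • w = (n • w + p • z') - (m • w + p • z) + (p • z - p • z') := by abel
    rw [h3, h2, sub_self, zero_add]
  apply hw (a • w + b • (z - z'))
  calc w = (a * (p : ℤ) + b * (n - m)) • w := by rw [hab, one_smul]
    _ = p • (a • w + b • (z - z')) := by
      rw [add_smul, mul_smul, mul_smul, h1, smul_add, natCast_zsmul, smul_comm a p w,
        smul_comm b p (z - z')]

end

theorem exists_chibar {T Λ : Type*} [CommRing T] [AddCommGroup Λ] (Θ : T →+* Module.End ℤ Λ)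
    (G : Set T) (hG : Subring.closure G = ⊤) (p : ℕ) [Fact p.Prime] (w : Λ)
    (hw : ∀ z : Λ, w ≠ p • z) (c : T → ℤ) (h : ∀ t ∈ G, ∃ z : Λ, Θ t w = c t • w + p • z) :
    ∃ χ : T →+* ZMod p, (∀ t ∈ G, χ t = (c t : ZMod p)) ∧
      ∀ t, ∃ (n : ℤ) (z : Λ), χ t = (n : ZMod p) ∧ Θ t w = n • w + p • z := by
  have hex : ∀ t : T, ∃ n : ℤ, CB_R Θ p w t n := by
    intro t
    have ht : t ∈ Subring.closure G := by rw [hG]; exact Subring.mem_top t
    induction ht using Subring.closure_induction with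
    | mem x hx => exact ⟨c x, h x hx⟩
    | zero => exact ⟨0, CB_R_zero⟩
    | one => exact ⟨1, CB_R_one⟩
    | add x y _ _ hx hy =>
      obtain ⟨m, hm⟩ := hx
      obtain ⟨n, hn⟩ := hy
      exact ⟨m + n, CB_R_add hm hn⟩
    | neg x _ hx =>
      obtain ⟨m, hm⟩ := hx
      exact ⟨-m, CB_R_neg hm⟩
    | mul x y _ _ hx hy =>
      obtain ⟨m, hm⟩ := hx
      obtain ⟨n, hn⟩ := hy
      exact ⟨m * n, CB_R_mul hm hn⟩
  choose ν hν using hex
  refine ⟨{ toFun := fun t => (ν t : ZMod p)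
            map_one' := ?_
            map_mul' := ?_
            map_zero' := ?_
            map_add' := ?_ }, ?_, ?_⟩
  · rw [CB_R_unique hw (hν 1) CB_R_one, Int.cast_one]
  · intro x y
    rw [CB_R_unique hw (hν (x * y)) (CB_R_mul (hν x) (hν y)), Int.cast_mul]
  · rw [CB_R_unique hw (hν 0) CB_R_zero, Int.cast_zero]
  · intro x y
    rw [CB_R_unique hw (hν (x + y)) (CB_R_add (hν x) (hν y)), Int.cast_add]
  · intro t ht
    exact CB_R_unique hw (hν t) (h t ht)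
  · intro t
    obtain ⟨z, hz⟩ := hν t
    exact ⟨ν t, z, rfl, hz⟩

end Fermat.Agent.S41Lib
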